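import Mathlib.NumberTheory.ModularForms.Derivative
import Mathlib.NumberTheory.ModularForms.LevelOne.DimensionFormula
import Mathlib.NumberTheory.ModularForms.LevelOne.GradedRing
import Mathlib.NumberTheory.ModularForms.Discriminant

set_option autoImplicit false

open UpperHalfPlane hiding I
open ModularForm Complex
open scoped Manifold MatrixGroups Topology Real

namespace Fermat.Agent.H15

local notation "𝕢" => Function.Periodic.qParam

/-- derivative of the `q`-parameter of period one -/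
lemma hasDerivAt_qParam_one (z : ℂ) :
    HasDerivAt (𝕢 1) (2 * π * I * 𝕢 1 z) z := by
  have h1 : HasDerivAt (fun w : ℂ => 2 * π * I * w / ((1 : ℝ) : ℂ)) (2 * π * I) z := by
    have := ((hasDerivAt_id z).const_mul (2 * π * I)).div_const (((1 : ℝ) : ℂ))
    simpa using this
  have h2 := h1.cexp
  have h3 : HasDerivAt (𝕢 1) (cexp (2 * π * I * z / ((1 : ℝ) : ℂ)) * (2 * π * I)) z := h2
  convert h3 using 1
  simp only [Function.Periodic.qParam]
  ring

/-- `D f = q · F'(q)` where `F` is the cusp function. -/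
lemma normalizedDeriv_eq_qParam_mul {f : ℍ → ℂ} (hper : Function.Periodic (f ∘ ofComplex) 1)
    (hf : MDiff f) (hbdd : IsBoundedAtImInfty f) (z : ℍ) :
    Derivative.normalizedDerivOfComplex f z =
      𝕢 1 z * deriv (cuspFunction 1 f) (𝕢 1 z) := by
  have hq : ‖𝕢 1 (z : ℂ)‖ < 1 := Function.Periodic.norm_qParam_lt_one one_pos z.im_pos
  have hF : DifferentiableAt ℂ (cuspFunction 1 f) (𝕢 1 z) :=
    differentiableAt_cuspFunction one_pos hper hf hbdd hq
  have hcomp : (f ∘ ofComplex) =ᶠ[𝓝 (z : ℂ)] (cuspFunction 1 f ∘ 𝕢 1) := by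
    filter_upwards [isOpen_upperHalfPlaneSet.mem_nhds z.im_pos] with w hw
    have := eq_cuspFunction (h := 1) (f := f) ⟨w, hw⟩ one_ne_zero hper
    simp only [Function.comp_apply, ofComplex_apply_of_im_pos hw]
    exact this.symm
  have hd : HasDerivAt (cuspFunction 1 f ∘ 𝕢 1)
      (deriv (cuspFunction 1 f) (𝕢 1 z) * (2 * π * I * 𝕢 1 z)) (z : ℂ) :=
    hF.hasDerivAt.comp (z : ℂ) (hasDerivAt_qParam_one z)
  have hd' := (hd.congr_of_eventuallyEq hcomp).deriv
  rw [Derivative.normalizedDerivOfComplex, hd']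
  have h2pi : (2 * π * I : ℂ) ≠ 0 := two_pi_I_ne_zero
  field_simp

/-- `D f` tends to zero at `i∞` for a holomorphic periodic function bounded at `i∞`. -/
lemma tendsto_normalizedDeriv_atImInfty {f : ℍ → ℂ}
    (hper : Function.Periodic (f ∘ ofComplex) 1)
    (hf : MDiff f) (hbdd : IsBoundedAtImInfty f) :
    Filter.Tendsto (Derivative.normalizedDerivOfComplex f) atImInfty (𝓝 0) := by
  have hF : AnalyticAt ℂ (cuspFunction 1 f) 0 :=
    analyticAt_cuspFunction_zero one_pos hper hf hbdd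
  have hF' : ContinuousAt (deriv (cuspFunction 1 f)) 0 := hF.deriv.continuousAt
  have hq : Filter.Tendsto (fun τ : ℍ => 𝕢 1 (τ : ℂ)) atImInfty (𝓝 0) :=
    qParam_tendsto_atImInfty one_pos
  have h1 : Filter.Tendsto (fun τ : ℍ => deriv (cuspFunction 1 f) (𝕢 1 (τ : ℂ))) atImInfty
      (𝓝 (deriv (cuspFunction 1 f) 0)) := hF'.tendsto.comp hq
  have h2 := hq.mul h1
  rw [zero_mul] at h2
  refine h2.congr fun τ => ?_
  exact (normalizedDeriv_eq_qParam_mul hper hf hbdd τ).symm


/-- A function given by a convergent `q`-expansion tends to its constant coefficient at `i∞`. -/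
lemma tendsto_atImInfty_of_periodic {f : ℍ → ℂ}
    (hper : Function.Periodic (f ∘ ofComplex) 1) (hf : MDiff f) (hbdd : IsBoundedAtImInfty f) :
    Filter.Tendsto f atImInfty (𝓝 ((qExpansion 1 f).coeff 0)) := by
  have hF : AnalyticAt ℂ (cuspFunction 1 f) 0 :=
    analyticAt_cuspFunction_zero one_pos hper hf hbdd
  have hq : Filter.Tendsto (fun τ : ℍ => 𝕢 1 (τ : ℂ)) atImInfty (𝓝 0) :=
    qParam_tendsto_atImInfty one_pos
  have h1 : Filter.Tendsto (fun τ : ℍ => cuspFunction 1 f (𝕢 1 (τ : ℂ))) atImInfty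
      (𝓝 (cuspFunction 1 f 0)) := hF.continuousAt.tendsto.comp hq
  have h0 : (qExpansion 1 f).coeff 0 = cuspFunction 1 f 0 := by
    simp [qExpansion_coeff]
  rw [h0]
  refine h1.congr fun τ => ?_
  exact eq_cuspFunction τ one_ne_zero hper

lemma tendsto_atImInfty_levelOne {k : ℤ} (f : ModularForm 𝒮ℒ k) :
    Filter.Tendsto f atImInfty (𝓝 ((qExpansion 1 f).coeff 0)) :=
  tendsto_atImInfty_of_periodic
    (SlashInvariantFormClass.periodic_comp_ofComplex f one_mem_strictPeriods_SL)
    (ModularFormClass.holo f) (ModularFormClass.bdd_at_infty f)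

lemma tendsto_E4 : Filter.Tendsto E₄ atImInfty (𝓝 1) := by
  have := tendsto_atImInfty_levelOne E₄
  rwa [EisensteinSeries.E_qExpansion_coeff_zero (by norm_num) (by decide)] at this

lemma tendsto_E6 : Filter.Tendsto E₆ atImInfty (𝓝 1) := by
  have := tendsto_atImInfty_levelOne E₆
  rwa [EisensteinSeries.E_qExpansion_coeff_zero (by norm_num) (by decide)] at this

lemma hasSum_E2 (τ : ℍ) :
    HasSum (fun m : ℕ ↦ (if m = 0 then 1 else -24 * (ArithmeticFunction.sigma 1 m : ℂ) : ℂ) •
      𝕢 1 τ ^ m) (EisensteinSeries.E2 τ) := by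
  simpa only [Function.Periodic.qParam, ofReal_one, div_one] using
    EisensteinSeries.hasSum_qExpansion_E2 (z := τ)

lemma periodic_E2 : Function.Periodic (EisensteinSeries.E2 ∘ ofComplex) 1 := by
  intro w
  by_cases hw : 0 < im w
  · have hw1 : 0 < im (w + (1 : ℝ)) := by simpa using hw
    simp only [Function.comp_apply]
    have h1 := (hasSum_E2 (ofComplex (w + (1 : ℝ)))).tsum_eq
    have h2 := (hasSum_E2 (ofComplex w)).tsum_eq
    have hq : 𝕢 1 ((ofComplex (w + (1 : ℝ)) : ℍ) : ℂ) = 𝕢 1 ((ofComplex w : ℍ) : ℂ) := by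
      rw [ofComplex_apply_of_im_pos hw1, ofComplex_apply_of_im_pos hw]
      simp only [Function.Periodic.qParam]
      have : 2 * (π : ℂ) * I * (w + ((1 : ℝ) : ℂ)) / ((1 : ℝ) : ℂ)
          = 2 * π * I * w / ((1 : ℝ) : ℂ) + 2 * π * I := by
        push_cast; ring
      change cexp (2 * π * I * (w + ((1 : ℝ) : ℂ)) / ((1 : ℝ) : ℂ)) = cexp (2 * π * I * w / ((1 : ℝ) : ℂ))
      rw [this, Complex.exp_add, Complex.exp_two_pi_mul_I, mul_one]
    have hcast : (w + ((1 : ℝ) : ℂ)) = w + 1 := by push_cast; rfl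
    rw [hcast] at h1 hq
    rw [← h1, ← h2, hq]
  · have hw' : im w ≤ 0 := not_lt.mp hw
    have hw1 : im (w + 1) ≤ 0 := by simpa using hw'
    simp [ofComplex_apply_of_im_nonpos hw1, ofComplex_apply_of_im_nonpos hw']

lemma tendsto_E2 : Filter.Tendsto EisensteinSeries.E2 atImInfty (𝓝 1) := by
  have hper := periodic_E2
  have hF : AnalyticAt ℂ (cuspFunction 1 EisensteinSeries.E2) 0 :=
    analyticAt_cuspFunction_zero one_pos hper E2_mdifferentiable
      EisensteinSeries.isBoundedAtImInfty_E2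
  have h0 : (if (0 : ℕ) = 0 then (1 : ℂ) else -24 * (ArithmeticFunction.sigma 1 0 : ℂ))
      = (qExpansion 1 EisensteinSeries.E2).coeff 0 := by
    let inst : FunLike (ℍ → ℂ) ℍ ℂ := ⟨fun f => f, fun _ _ h => h⟩
    exact @qExpansion_coeff_unique (ℍ → ℂ) inst 1 EisensteinSeries.E2
      (fun m : ℕ => (if m = 0 then 1 else -24 * (ArithmeticFunction.sigma 1 m : ℂ) : ℂ))
      one_pos hF (fun τ => hasSum_E2 τ) 0
  have h1 : (qExpansion 1 EisensteinSeries.E2).coeff 0 = 1 := by
    rw [← h0]; simp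
  have := tendsto_atImInfty_of_periodic hper E2_mdifferentiable
    EisensteinSeries.isBoundedAtImInfty_E2
  rwa [h1] at this

/-- The Serre derivative of a level one modular form, as a modular form of weight `k + 2`. -/
noncomputable def serreDerivMF {k : ℤ} (f : ModularForm 𝒮ℒ k) (k' : ℤ) (hk : k + 2 = k') :
    ModularForm 𝒮ℒ k' where
  toFun := Derivative.serreDerivative k f
  slash_action_eq' A hA := by
    subst hk
    obtain ⟨A, rfl⟩ := hA
    exact Derivative.serreDerivative_slash_invariant (ModularFormClass.holo f)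
      (SlashInvariantFormClass.slash_action_eq f _ ⟨A, rfl⟩)
  holo' := Derivative.serreDerivative_mdifferentiable k (ModularFormClass.holo f)
  bdd_at_cusps' hc := by
    subst hk
    rw [Subgroup.IsArithmetic.isCusp_iff_isCusp_SL2Z] at hc
    rw [OnePoint.isBoundedAt_iff_forall_SL2Z hc]
    intro γ _
    rw [Derivative.serreDerivative_slash_invariant (ModularFormClass.holo f)
      (SlashInvariantFormClass.slash_action_eq f _ ⟨γ, rfl⟩)]
    have h1 : IsBoundedAtImInfty (Derivative.normalizedDerivOfComplex f) :=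
      (tendsto_normalizedDeriv_atImInfty
        (SlashInvariantFormClass.periodic_comp_ofComplex f one_mem_strictPeriods_SL)
        (ModularFormClass.holo f) (ModularFormClass.bdd_at_infty f)).isBigO_one ℝ
    have h2 : IsBoundedAtImInfty (fun z => (k : ℂ) * 12⁻¹ * EisensteinSeries.E2 z * f z) := by
      have h3 : IsBoundedAtImInfty (fun z => EisensteinSeries.E2 z * f z) :=
        EisensteinSeries.isBoundedAtImInfty_E2.mul (ModularFormClass.bdd_at_infty f)
      have h4 := (Filter.const_boundedAtFilter atImInfty ((k : ℂ) * 12⁻¹)).mul h3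
      refine h4.congr' ?_ ?_ <;> exact Filter.Eventually.of_forall fun z => by
        simp [mul_assoc]
    exact h1.sub h2

@[simp] lemma serreDerivMF_apply {k : ℤ} (f : ModularForm 𝒮ℒ k) (k' : ℤ) (hk : k + 2 = k')
    (z : ℍ) :
    serreDerivMF f k' hk z = Derivative.normalizedDerivOfComplex f z -
      (k : ℂ) * 12⁻¹ * EisensteinSeries.E2 z * f z := rfl

lemma tendsto_serreDerivMF {k : ℤ} (f : ModularForm 𝒮ℒ k) (k' : ℤ) (hk : k + 2 = k') :
    Filter.Tendsto (serreDerivMF f k' hk) atImInfty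
      (𝓝 (-((k : ℂ) * 12⁻¹ * (qExpansion 1 f).coeff 0))) := by
  have h1 := tendsto_normalizedDeriv_atImInfty
    (SlashInvariantFormClass.periodic_comp_ofComplex f one_mem_strictPeriods_SL)
    (ModularFormClass.holo f) (ModularFormClass.bdd_at_infty f)
  have h2 := (tendsto_E2.const_mul ((k : ℂ) * 12⁻¹)).mul (tendsto_atImInfty_levelOne f)
  have h3 := h1.sub h2
  simp only [mul_one, zero_sub] at h3
  refine h3.congr fun z => ?_
  simp [serreDerivMF_apply]

/-- A level one modular form of weight `< 12` which tends to zero at `i∞` vanishes. -/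
lemma eq_zero_of_tendsto_zero {k : ℤ} (hk : k < 12) (f : ModularForm 𝒮ℒ k)
    (h : Filter.Tendsto f atImInfty (𝓝 0)) : f = 0 := by
  have h0 : (qExpansion 1 f).coeff 0 = 0 :=
    tendsto_nhds_unique (tendsto_atImInfty_levelOne f) h
  apply ModularForm.sturm_bound_levelOne
  have hk0 : k.toNat / 12 = 0 := by omega
  rw [hk0]
  have h1 : ((1 : ℕ) : ℕ∞) ≤ (qExpansion 1 f).order := by
    apply PowerSeries.nat_le_order
    intro i hi
    have : i = 0 := by omega
    subst this
    exact h0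
  exact lt_of_lt_of_le (by norm_num) h1

theorem ramanujan_E4 (z : ℍ) :
    Derivative.normalizedDerivOfComplex (⇑E₄) z = (EisensteinSeries.E2 z * E₄ z - E₆ z) / 3 := by
  have hG : serreDerivMF E₄ 6 (by norm_num) + (3 : ℂ)⁻¹ • E₆ = 0 := by
    apply eq_zero_of_tendsto_zero (by norm_num)
    have h1 := tendsto_serreDerivMF E₄ 6 (by norm_num)
    rw [EisensteinSeries.E_qExpansion_coeff_zero (by norm_num) (by decide)] at h1
    have h2 := h1.add (tendsto_E6.const_mul ((3 : ℂ)⁻¹))
    have h3 : -(((4 : ℤ) : ℂ) * 12⁻¹ * 1) + (3 : ℂ)⁻¹ * 1 = 0 := by push_cast; norm_num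
    rw [h3] at h2
    refine h2.congr fun w => ?_
    simp
  have := congrArg (fun f : ModularForm 𝒮ℒ 6 => f z) hG
  simp only [add_apply, serreDerivMF_apply, smul_apply, smul_eq_mul,
    zero_apply] at this
  push_cast at this
  linear_combination this


theorem ramanujan_E6 (z : ℍ) :
    Derivative.normalizedDerivOfComplex (⇑E₆) z =
      (EisensteinSeries.E2 z * E₆ z - E₄ z ^ 2) / 2 := by
  have hG : serreDerivMF E₆ (4 + 4) (by norm_num) + (2 : ℂ)⁻¹ • (E₄.mul E₄) = 0 := by
    apply eq_zero_of_tendsto_zero (by norm_num)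
    have h1 := tendsto_serreDerivMF E₆ (4 + 4) (by norm_num)
    rw [EisensteinSeries.E_qExpansion_coeff_zero (by norm_num) (by decide)] at h1
    have h2 := h1.add ((tendsto_E4.mul tendsto_E4).const_mul ((2 : ℂ)⁻¹))
    have h3 : -(((6 : ℤ) : ℂ) * 12⁻¹ * 1) + (2 : ℂ)⁻¹ * (1 * 1) = 0 := by push_cast; norm_num
    rw [h3] at h2
    refine h2.congr fun w => ?_
    rfl
  have := congrArg (fun f : ModularForm 𝒮ℒ (4 + 4) => f z) hG
  have hmul : (E₄.mul E₄) z = E₄ z * E₄ z := rfl
  simp only [add_apply, serreDerivMF_apply, smul_apply, smul_eq_mul,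
    zero_apply, hmul] at this
  push_cast at this
  linear_combination this

theorem ramanujan_Delta (z : ℍ) :
    Derivative.normalizedDerivOfComplex ModularForm.discriminant z =
      EisensteinSeries.E2 z * ModularForm.discriminant z := by
  have hz : (z : ℂ) ∈ upperHalfPlaneSet := z.im_pos
  have hη : DifferentiableAt ℂ ModularForm.eta (z : ℂ) :=
    ModularForm.differentiableAt_eta_of_mem_upperHalfPlaneSet hz
  have hη0 : ModularForm.eta (z : ℂ) ≠ 0 := ModularForm.eta_ne_zero hz
  have hlog := ModularForm.logDeriv_eta_eq_E2 z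
  rw [logDeriv_apply, div_eq_iff hη0] at hlog
  have hcomp : (ModularForm.discriminant ∘ ofComplex) =ᶠ[𝓝 (z : ℂ)]
      (ModularForm.eta ^ 24) := by
    filter_upwards [isOpen_upperHalfPlaneSet.mem_nhds z.im_pos] with w hw
    simp [ModularForm.discriminant, ofComplex_apply_of_im_pos hw]
  have hd : HasDerivAt (ModularForm.eta ^ 24)
      (24 * ModularForm.eta (z : ℂ) ^ 23 * deriv ModularForm.eta (z : ℂ)) (z : ℂ) := by
    simpa using hη.hasDerivAt.pow 24
  have hd' := (hd.congr_of_eventuallyEq hcomp).deriv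
  rw [Derivative.normalizedDerivOfComplex, hd', hlog]
  have h2pi : (2 * π * I : ℂ) ≠ 0 := two_pi_I_ne_zero
  simp only [ModularForm.discriminant]
  field_simp
  ring

lemma deriv_eq_two_pi_I_mul (F : ℍ → ℂ) (z : ℍ) :
    deriv (F ∘ ofComplex) z = 2 * π * I * Derivative.normalizedDerivOfComplex F z := by
  have h2pi : (2 * π * I : ℂ) ≠ 0 := two_pi_I_ne_zero
  rw [Derivative.normalizedDerivOfComplex]
  field_simp

lemma E4_cube_sub_E6_sq_ne_zero (z : ℍ) : E₄ z ^ 3 - E₆ z ^ 2 ≠ 0 := by
  have h := ModularForm.discriminant_eq_E₄_cube_sub_E₆_sq z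
  have h0 := ModularForm.discriminant_ne_zero z
  intro hc
  rw [hc, zero_div] at h
  exact h0 h

theorem deriv_E4_ne_zero (z : ℍ) (h : E₄ z = 0) : deriv (⇑E₄ ∘ ofComplex) z ≠ 0 := by
  have h2pi : (2 * π * I : ℂ) ≠ 0 := two_pi_I_ne_zero
  have h6 : E₆ z ≠ 0 := by
    intro h6
    have := E4_cube_sub_E6_sq_ne_zero z
    rw [h, h6] at this
    simp at this
  rw [deriv_eq_two_pi_I_mul, ramanujan_E4, h]
  refine mul_ne_zero h2pi ?_
  simp [h6]

theorem deriv_E6_ne_zero (z : ℍ) (h : E₆ z = 0) : deriv (⇑E₆ ∘ ofComplex) z ≠ 0 := by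
  have h2pi : (2 * π * I : ℂ) ≠ 0 := two_pi_I_ne_zero
  have h4 : E₄ z ≠ 0 := by
    intro h4
    have := E4_cube_sub_E6_sq_ne_zero z
    rw [h, h4] at this
    simp at this
  rw [deriv_eq_two_pi_I_mul, ramanujan_E6, h]
  refine mul_ne_zero h2pi ?_
  simp [h4]

theorem deriv_P_ne_zero (z : ℍ) (h4 : E₄ z ≠ 0) (h6 : E₆ z ≠ 0) (t : ℂ)
    (ht : E₄ z ^ 3 = t * ModularForm.discriminant z) :
    deriv ((fun w : ℍ => E₄ w ^ 3 - t * ModularForm.discriminant w) ∘ ofComplex) z ≠ 0 := by
  have h2pi : (2 * π * I : ℂ) ≠ 0 := two_pi_I_ne_zero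
  have hE4 : MDiff (⇑E₄) := ModularFormClass.holo E₄
  have hΔ : MDiff ModularForm.discriminant := ModularFormClass.holo CuspForm.discriminant
  have hfun : (fun w : ℍ => E₄ w ^ 3 - t * ModularForm.discriminant w)
      = (⇑E₄) ^ 3 - t • ModularForm.discriminant := by
    ext w; simp
  have hD : Derivative.normalizedDerivOfComplex
      (fun w : ℍ => E₄ w ^ 3 - t * ModularForm.discriminant w) z
      = 3 * E₄ z ^ 2 * Derivative.normalizedDerivOfComplex (⇑E₄) z
        - t * Derivative.normalizedDerivOfComplex ModularForm.discriminant z := by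
    rw [hfun, Derivative.normalizedDerivOfComplex_sub _ _ (hE4.pow 3) (hΔ.const_smul t),
      Derivative.normalizedDerivOfComplex_pow _ _ hE4,
      Derivative.normalizedDerivOfComplex_smul _ _ hΔ]
    simp
  rw [deriv_eq_two_pi_I_mul, hD, ramanujan_E4, ramanujan_Delta]
  refine mul_ne_zero h2pi ?_
  have : 3 * E₄ z ^ 2 * ((EisensteinSeries.E2 z * E₄ z - E₆ z) / 3)
      - t * (EisensteinSeries.E2 z * ModularForm.discriminant z)
      = - (E₄ z ^ 2 * E₆ z) := by
    linear_combination EisensteinSeries.E2 z * ht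
  rw [this]
  exact neg_ne_zero.mpr (mul_ne_zero (pow_ne_zero 2 h4) h6)

end Fermat.Agent.H15
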