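import Mathlib

/-!
# Negligible primes (helper15, P-S14 / C4)

The sum of `1 / N(v)` over the nonzero primes `v` of a number field whose norm is not a prime
number (residue degree `≥ 2`), or whose norm is a given number `p`, converges.
-/

set_option autoImplicit false

noncomputable section

namespace Fermat.Agent.H15

open IsDedekindDomain Ideal NumberField

variable {K : Type*} [Field K] [NumberField K]

/-- If a natural number `m > 1` lies in a prime ideal, so does one of its prime factors. -/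
theorem exists_prime_dvd_mem_of_natCast_mem {R : Type*} [CommRing R] {P : Ideal R}
    (hP : P.IsPrime) : ∀ m : ℕ, 1 < m → (m : R) ∈ P → ∃ q : ℕ, q.Prime ∧ q ∣ m ∧ (q : R) ∈ P := by
  intro m
  induction m using Nat.strong_induction_on with
  | _ m ih =>
    intro hm hmP
    by_cases hprime : m.Prime
    · exact ⟨m, hprime, dvd_rfl, hmP⟩
    · obtain ⟨a, ha1, ha2, b, hb1, hb2, rfl⟩ : ∃ a, 1 < a ∧ a < m ∧ ∃ b, 1 < b ∧ b < m ∧
          m = a * b := by
        have h2 : 2 ≤ m := hm
        obtain ⟨a, hadvd, ha1, ha2⟩ := Nat.exists_dvd_of_not_prime2 h2 hprime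
        obtain ⟨b, rfl⟩ := hadvd
        have ha0 : 0 < a := by omega
        have hb1 : 1 < b := by
          by_contra hb
          push Not at hb
          interval_cases b
          · simp at hm
          · omega
        refine ⟨a, by omega, ha2, b, hb1, ?_, rfl⟩
        nlinarith
      rw [Nat.cast_mul] at hmP
      rcases hP.mem_or_mem hmP with h | h
      · obtain ⟨q, hq, hqa, hqP⟩ := ih a ha2 ha1 h
        exact ⟨q, hq, hqa.mul_right b, hqP⟩
      · obtain ⟨q, hq, hqb, hqP⟩ := ih b hb2 hb1 h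
        exact ⟨q, hq, hqb.mul_left a, hqP⟩

theorem absNorm_ne_one (v : HeightOneSpectrum (𝓞 K)) : absNorm v.asIdeal ≠ 1 := by
  rw [Ne, absNorm_eq_one_iff]
  exact v.isPrime.ne_top

theorem absNorm_ne_zero' (v : HeightOneSpectrum (𝓞 K)) : absNorm v.asIdeal ≠ 0 := by
  rw [Ne, absNorm_eq_zero_iff]
  exact v.ne_bot

/-- if the prime number `q` lies in `v`, the norm of `v` is a positive power of `q`
with exponent at most the degree. -/
theorem absNorm_eq_pow_of_mem (v : HeightOneSpectrum (𝓞 K)) {q : ℕ} (hq : q.Prime)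
    (hqv : (q : 𝓞 K) ∈ v.asIdeal) :
    ∃ f : ℕ, 0 < f ∧ absNorm v.asIdeal = q ^ f := by
  have hle : span {(q : 𝓞 K)} ≤ v.asIdeal := (span_singleton_le_iff_mem _).mpr hqv
  have hdvd := absNorm_dvd_absNorm_of_le hle
  rw [absNorm_span_natCast] at hdvd
  obtain ⟨f, -, hf⟩ := (Nat.dvd_prime_pow hq).mp hdvd
  refine ⟨f, Nat.pos_of_ne_zero ?_, hf⟩
  rintro rfl
  exact absNorm_ne_one v (by simpa using hf)

/-- the norm of a nonzero prime is a positive power of a prime number lying in it. -/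
theorem exists_prime_absNorm_eq_pow (v : HeightOneSpectrum (𝓞 K)) :
    ∃ q f : ℕ, q.Prime ∧ 0 < f ∧ absNorm v.asIdeal = q ^ f ∧ (q : 𝓞 K) ∈ v.asIdeal := by
  have h1 : 1 < absNorm v.asIdeal := by
    have := absNorm_ne_one v
    have := absNorm_ne_zero' v
    omega
  obtain ⟨q, hq, -, hqv⟩ := exists_prime_dvd_mem_of_natCast_mem v.isPrime _ h1
    (absNorm_mem v.asIdeal)
  obtain ⟨f, hf, hN⟩ := absNorm_eq_pow_of_mem v hq hqv
  exact ⟨q, f, hq, hf, hN, hqv⟩

/-- the prime number below `v`. -/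
def primeBelow (v : HeightOneSpectrum (𝓞 K)) : ℕ := (absNorm v.asIdeal).minFac

theorem primeBelow_spec (v : HeightOneSpectrum (𝓞 K)) :
    (primeBelow v).Prime ∧ ((primeBelow v : ℕ) : 𝓞 K) ∈ v.asIdeal ∧
      ∃ f : ℕ, 0 < f ∧ absNorm v.asIdeal = primeBelow v ^ f := by
  obtain ⟨q, f, hq, hf, hN, hqv⟩ := exists_prime_absNorm_eq_pow v
  have : primeBelow v = q := by
    rw [primeBelow, hN, hq.pow_minFac hf.ne']
  rw [this]
  exact ⟨hq, hqv, f, hf, hN⟩

theorem sq_primeBelow_le (v : HeightOneSpectrum (𝓞 K)) (hv : ¬ (absNorm v.asIdeal).Prime) :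
    primeBelow v ^ 2 ≤ absNorm v.asIdeal := by
  obtain ⟨hq, -, f, hf, hN⟩ := primeBelow_spec v
  rw [hN]
  have hf2 : 2 ≤ f := by
    by_contra h
    have : f = 1 := by omega
    rw [this, pow_one] at hN
    exact hv (hN ▸ hq)
  exact Nat.pow_le_pow_right hq.pos hf2

/-- at most `[K : ℚ]` primes of `K` contain a given prime number. -/
theorem card_le_of_forall_mem {q : ℕ} (hq : q.Prime) (F : Finset (HeightOneSpectrum (𝓞 K)))
    (hF : ∀ v ∈ F, (q : 𝓞 K) ∈ v.asIdeal) : F.card ≤ Module.finrank ℤ (𝓞 K) := by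
  classical
  have hprod : ∏ v ∈ F, v.asIdeal ∣ span {(q : 𝓞 K)} := by
    have hinj : Set.InjOn (fun v : HeightOneSpectrum (𝓞 K) ↦ v.asIdeal) F :=
      fun v _ w _ h ↦ HeightOneSpectrum.ext h
    rw [← Finset.prod_image (f := fun I : Ideal (𝓞 K) ↦ I) hinj]
    refine Finset.prod_primes_dvd _ ?_ ?_
    · intro I hI
      obtain ⟨v, -, rfl⟩ := Finset.mem_image.mp hI
      exact v.prime
    · intro I hI
      obtain ⟨v, hv, rfl⟩ := Finset.mem_image.mp hI
      exact Ideal.dvd_iff_le.mpr ((span_singleton_le_iff_mem _).mpr (hF v hv))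
  have hdvd := absNorm_dvd_absNorm_of_le (Ideal.le_of_dvd hprod)
  rw [absNorm_span_natCast, map_prod] at hdvd
  have hpow : q ^ F.card ∣ ∏ v ∈ F, absNorm v.asIdeal := by
    rw [← Finset.prod_const]
    refine Finset.prod_dvd_prod_of_dvd _ _ fun v hv ↦ ?_
    obtain ⟨f, hf, hN⟩ := absNorm_eq_pow_of_mem v hq (hF v hv)
    rw [hN]
    exact dvd_pow_self q hf.ne'
  exact (Nat.pow_dvd_pow_iff_le_right hq.one_lt).mp (hpow.trans hdvd)

/-- **Negligible primes**: the sum of `1 / N(v)` over the nonzero primes `v` of `K` whose norm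
is not a prime number (residue degree `≥ 2`) or is equal to a given number `p` converges. -/
theorem summable_inv_absNorm_not_degOne (K : Type*) [Field K] [NumberField K] (p : ℕ) :
    Summable (fun v : {v : HeightOneSpectrum (𝓞 K) //
        ¬ (absNorm v.asIdeal).Prime ∨ absNorm v.asIdeal = p} ↦
      ((absNorm v.1.asIdeal : ℝ))⁻¹) := by
  classical
  set n := Module.finrank ℤ (𝓞 K) with hn
  have hsum : Summable (fun k : ℕ ↦ 1 / (k : ℝ) ^ 2) :=
    Real.summable_one_div_nat_pow.mpr one_lt_two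
  refine summable_of_sum_le (c := n * (∑' k : ℕ, 1 / (k : ℝ) ^ 2) + n)
    (fun v ↦ by positivity) ?_
  intro F
  let G : Finset (HeightOneSpectrum (𝓞 K)) := F.map ⟨Subtype.val, Subtype.val_injective⟩
  have hG : ∀ v ∈ G, ¬ (absNorm v.asIdeal).Prime ∨ absNorm v.asIdeal = p := by
    intro v hv
    obtain ⟨w, -, rfl⟩ := Finset.mem_map.mp hv
    exact w.2
  have e : ∑ v ∈ F, ((absNorm v.1.asIdeal : ℝ))⁻¹ = ∑ v ∈ G, ((absNorm v.asIdeal : ℝ))⁻¹ := by
    rw [Finset.sum_map]
    rfl
  rw [e, ← Finset.sum_filter_add_sum_filter_not G (fun v ↦ ¬ (absNorm v.asIdeal).Prime)]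
  apply add_le_add
  · set G₁ := G.filter (fun v ↦ ¬ (absNorm v.asIdeal).Prime) with hG₁
    have hG₁mem : ∀ v ∈ G₁, ¬ (absNorm v.asIdeal).Prime := fun v hv ↦ (Finset.mem_filter.mp hv).2
    calc ∑ v ∈ G₁, ((absNorm v.asIdeal : ℝ))⁻¹
        ≤ ∑ v ∈ G₁, 1 / ((primeBelow v : ℕ) : ℝ) ^ 2 := by
          refine Finset.sum_le_sum fun v hv ↦ ?_
          have h1 := sq_primeBelow_le v (hG₁mem v hv)
          have h2 : (0 : ℝ) < ((primeBelow v : ℕ) : ℝ) ^ 2 := by
            have := (primeBelow_spec v).1.pos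
            positivity
          rw [one_div]
          apply inv_anti₀ h2
          exact_mod_cast h1
      _ = ∑ q ∈ G₁.image primeBelow, ∑ v ∈ G₁ with primeBelow v = q,
            1 / ((primeBelow v : ℕ) : ℝ) ^ 2 :=
          (Finset.sum_fiberwise_of_maps_to (fun v hv ↦ Finset.mem_image_of_mem _ hv) _).symm
      _ ≤ ∑ q ∈ G₁.image primeBelow, (n : ℝ) * (1 / (q : ℝ) ^ 2) := by
          refine Finset.sum_le_sum fun q hq ↦ ?_
          obtain ⟨w, hw, rfl⟩ := Finset.mem_image.mp hq
          have hcard : (G₁.filter (fun v ↦ primeBelow v = primeBelow w)).card ≤ n := by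
            refine card_le_of_forall_mem (primeBelow_spec w).1 _ fun v hv ↦ ?_
            have := (Finset.mem_filter.mp hv).2
            rw [← this]
            exact (primeBelow_spec v).2.1
          calc ∑ v ∈ G₁ with primeBelow v = primeBelow w, 1 / ((primeBelow v : ℕ) : ℝ) ^ 2
              = ∑ v ∈ G₁ with primeBelow v = primeBelow w,
                  1 / ((primeBelow w : ℕ) : ℝ) ^ 2 := by
                refine Finset.sum_congr rfl fun v hv ↦ ?_
                rw [(Finset.mem_filter.mp hv).2]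
            _ = ((G₁.filter (fun v ↦ primeBelow v = primeBelow w)).card : ℝ) *
                  (1 / ((primeBelow w : ℕ) : ℝ) ^ 2) := by
                rw [Finset.sum_const, nsmul_eq_mul]
            _ ≤ (n : ℝ) * (1 / ((primeBelow w : ℕ) : ℝ) ^ 2) := by
                refine mul_le_mul_of_nonneg_right ?_ (by positivity)
                exact_mod_cast hcard
      _ = (n : ℝ) * ∑ q ∈ G₁.image primeBelow, 1 / (q : ℝ) ^ 2 := by
          rw [Finset.mul_sum]
      _ ≤ (n : ℝ) * ∑' k : ℕ, 1 / (k : ℝ) ^ 2 := by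
          refine mul_le_mul_of_nonneg_left ?_ (by positivity)
          exact hsum.sum_le_tsum _ (fun _ _ ↦ by positivity)
  · set G₂ := G.filter (fun v ↦ ¬ ¬ (absNorm v.asIdeal).Prime) with hG₂
    have hG₂mem : ∀ v ∈ G₂, (absNorm v.asIdeal).Prime ∧ absNorm v.asIdeal = p := by
      intro v hv
      obtain ⟨hvG, hv2⟩ := Finset.mem_filter.mp hv
      have hv2' : (absNorm v.asIdeal).Prime := not_not.mp hv2
      rcases hG v hvG with h | h
      · exact absurd hv2' h
      · exact ⟨hv2', h⟩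
    have hcard : G₂.card ≤ n := by
      rcases G₂.eq_empty_or_nonempty with h0 | ⟨w, hw⟩
      · rw [h0]; simp
      · have hp : p.Prime := (hG₂mem w hw).2 ▸ (hG₂mem w hw).1
        refine card_le_of_forall_mem hp _ fun v hv ↦ ?_
        rw [← (hG₂mem v hv).2]
        exact absNorm_mem v.asIdeal
    calc ∑ v ∈ G₂, ((absNorm v.asIdeal : ℝ))⁻¹ ≤ ∑ v ∈ G₂, (1 : ℝ) := by
          refine Finset.sum_le_sum fun v hv ↦ ?_
          apply inv_le_one_of_one_le₀
          have := (hG₂mem v hv).1.one_lt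
          exact_mod_cast this.le
      _ = (G₂.card : ℝ) := by simp
      _ ≤ n := by exact_mod_cast hcard

end Fermat.Agent.H15
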