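import Mathlib.MeasureTheory.Measure.Lebesgue.Basic
import Mathlib.Topology.MetricSpace.Thickening
import Mathlib.Topology.MetricSpace.Lipschitz

/-!
# Volume of neighbourhoods of Lipschitz images of cubes (helper15)

If `f : (κ → ℝ) → (ι → ℝ)` is Lipschitz on the unit cube, the set of points at distance `≤ ρ`
of the image of the cube has volume `≤ (m + 1) ^ #κ * (2 * (L / m + ρ)) ^ #ι` for every `m ≥ 1`.
In particular, if `#κ < #ι`, the `ε`-neighbourhood of the image has volume `O(ε)`.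
-/

set_option autoImplicit false
set_option linter.unusedSectionVars false

noncomputable section

namespace Fermat.Agent.H15

open MeasureTheory Metric Set

/-- the grid point with coordinates `k j / m` -/
def gridPt {κ : Type*} (m : ℕ) (k : κ → Fin (m + 1)) : κ → ℝ := fun j ↦ ((k j : ℕ) : ℝ) / m

theorem gridPt_mem_Icc {κ : Type*} {m : ℕ} (hm : 0 < m) (k : κ → Fin (m + 1)) :
    gridPt m k ∈ Icc (0 : κ → ℝ) 1 := by
  have hm' : (0 : ℝ) < m := Nat.cast_pos.mpr hm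
  refine ⟨fun j ↦ ?_, fun j ↦ ?_⟩
  · simp only [gridPt, Pi.zero_apply]
    positivity
  · simp only [gridPt, Pi.one_apply]
    rw [div_le_one hm']
    exact_mod_cast Nat.lt_succ_iff.mp (k j).2

theorem exists_gridPt_dist_le {κ : Type*} [Fintype κ] {m : ℕ} (hm : 0 < m) {t : κ → ℝ}
    (ht : t ∈ Icc (0 : κ → ℝ) 1) :
    ∃ k : κ → Fin (m + 1), dist t (gridPt m k) ≤ 1 / m := by
  have hm' : (0 : ℝ) < m := Nat.cast_pos.mpr hm
  have hk : ∀ j, ⌊(m : ℝ) * t j⌋₊ < m + 1 := by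
    intro j
    rw [Nat.lt_succ_iff]
    apply Nat.floor_le_of_le
    have : t j ≤ 1 := ht.2 j
    nlinarith
  refine ⟨fun j ↦ ⟨⌊(m : ℝ) * t j⌋₊, hk j⟩, ?_⟩
  rw [dist_pi_le_iff (by positivity)]
  intro j
  have h0 : 0 ≤ (m : ℝ) * t j := mul_nonneg hm'.le (ht.1 j)
  have h1 : (⌊(m : ℝ) * t j⌋₊ : ℝ) ≤ m * t j := Nat.floor_le h0
  have h2 : (m : ℝ) * t j < ⌊(m : ℝ) * t j⌋₊ + 1 := Nat.lt_floor_add_one _
  simp only [gridPt]
  have hinv : 0 < 1 / (m : ℝ) := by positivity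
  have key : t j - (⌊(m : ℝ) * t j⌋₊ : ℝ) / m = (m * t j - ⌊(m : ℝ) * t j⌋₊) * (1 / m) := by
    field_simp
  rw [Real.dist_eq, key, abs_le]
  constructor
  · have : 0 ≤ (m * t j - ⌊(m : ℝ) * t j⌋₊) * (1 / (m : ℝ)) :=
      mul_nonneg (by linarith) hinv.le
    linarith
  · have : (m * t j - ⌊(m : ℝ) * t j⌋₊) * (1 / (m : ℝ)) ≤ 1 * (1 / (m : ℝ)) :=
      mul_le_mul_of_nonneg_right (by linarith) hinv.le
    linarith

/-- Covering estimate: the closed `ρ`-neighbourhood of the image of the unit cube under a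
map that is `L`-Lipschitz on the cube is covered by `(m+1)^#κ` balls of radius `L/m + ρ`. -/
theorem volume_nhd_image_cube_le {κ ι : Type*} [Fintype κ] [Fintype ι]
    {f : (κ → ℝ) → (ι → ℝ)} {L : NNReal} (hf : LipschitzOnWith L f (Icc 0 1))
    {ρ : ℝ} (hρ : 0 ≤ ρ) {m : ℕ} (hm : 0 < m) :
    volume {y : ι → ℝ | ∃ t ∈ Icc (0 : κ → ℝ) 1, dist y (f t) ≤ ρ} ≤
      ENNReal.ofReal (((m : ℝ) + 1) ^ Fintype.card κ * (2 * (L / m + ρ)) ^ Fintype.card ι) := by
  classical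
  have hm' : (0 : ℝ) < m := Nat.cast_pos.mpr hm
  have hr : 0 ≤ (L : ℝ) / m + ρ := by positivity
  have hsub : {y : ι → ℝ | ∃ t ∈ Icc (0 : κ → ℝ) 1, dist y (f t) ≤ ρ} ⊆
      ⋃ k : κ → Fin (m + 1), closedBall (f (gridPt m k)) (L / m + ρ) := by
    rintro y ⟨t, ht, hyt⟩
    obtain ⟨k, hk⟩ := exists_gridPt_dist_le hm ht
    rw [mem_iUnion]
    refine ⟨k, ?_⟩
    rw [mem_closedBall]
    have h1 : dist (f t) (f (gridPt m k)) ≤ L * dist t (gridPt m k) :=
      hf.dist_le_mul t ht _ (gridPt_mem_Icc hm k)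
    have h2 : (L : ℝ) * dist t (gridPt m k) ≤ L / m := by
      rw [div_eq_mul_one_div]
      exact mul_le_mul_of_nonneg_left hk L.2
    calc dist y (f (gridPt m k)) ≤ dist y (f t) + dist (f t) (f (gridPt m k)) :=
          dist_triangle _ _ _
      _ ≤ ρ + L / m := by linarith
      _ = L / m + ρ := add_comm _ _
  refine (measure_mono hsub).trans ((measure_iUnion_fintype_le _ _).trans ?_)
  simp_rw [Real.volume_pi_closedBall _ hr]
  rw [Finset.sum_const, Finset.card_univ, nsmul_eq_mul, Fintype.card_fun, Fintype.card_fin,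
    ENNReal.ofReal_mul (by positivity), ENNReal.ofReal_pow (by positivity)]
  refine le_of_eq ?_
  congr 1
  rw [Nat.cast_pow, Nat.cast_add, Nat.cast_one, ENNReal.ofReal_pow (by positivity),
    ENNReal.ofReal_add hm'.le zero_le_one, ENNReal.ofReal_natCast, ENNReal.ofReal_one]

end Fermat.Agent.H15

namespace Fermat.Agent.H15

open MeasureTheory Metric Set

section Boundary

variable {ι : Type*} [Fintype ι] [DecidableEq ι]

/-- insert the value `b` at the coordinate `i`. -/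
def insertCoord (i : ι) (b : ℝ) (s : {j : ι // j ≠ i} → ℝ) : ι → ℝ :=
  fun j ↦ if h : j = i then b else s ⟨j, h⟩

theorem insertCoord_self (i : ι) (b : ℝ) (s : {j : ι // j ≠ i} → ℝ) :
    insertCoord i b s i = b := by
  simp [insertCoord]

theorem insertCoord_of_ne (i : ι) (b : ℝ) (s : {j : ι // j ≠ i} → ℝ) {j : ι} (h : j ≠ i) :
    insertCoord i b s j = s ⟨j, h⟩ := by
  simp [insertCoord, h]

theorem lipschitzWith_insertCoord (i : ι) (b : ℝ) : LipschitzWith 1 (insertCoord i b) := by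
  refine LipschitzWith.of_dist_le_mul fun s s' ↦ ?_
  rw [NNReal.coe_one, one_mul, dist_pi_le_iff dist_nonneg]
  intro j
  by_cases h : j = i
  · subst h
    simp [insertCoord_self]
  · rw [insertCoord_of_ne i b s h, insertCoord_of_ne i b s' h]
    exact dist_le_pi_dist s s' ⟨j, h⟩

theorem insertCoord_mem_Icc (i : ι) {b : ℝ} (hb : b ∈ Icc (0 : ℝ) 1) {s : {j : ι // j ≠ i} → ℝ}
    (hs : s ∈ Icc (0 : {j : ι // j ≠ i} → ℝ) 1) : insertCoord i b s ∈ Icc (0 : ι → ℝ) 1 := by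
  refine ⟨fun j ↦ ?_, fun j ↦ ?_⟩
  · by_cases h : j = i
    · subst h; simpa [insertCoord_self] using hb.1
    · rw [insertCoord_of_ne i b s h]; exact hs.1 ⟨j, h⟩
  · by_cases h : j = i
    · subst h; simpa [insertCoord_self] using hb.2
    · rw [insertCoord_of_ne i b s h]; exact hs.2 ⟨j, h⟩

theorem eq_insertCoord (i : ι) (t : ι → ℝ) :
    t = insertCoord i (t i) (fun j ↦ t j.1) := by
  funext j
  by_cases h : j = i
  · subst h; simp [insertCoord_self]
  · rw [insertCoord_of_ne _ _ _ h]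

/-- the boundary of the unit cube -/
def cubeBoundary (ι : Type*) : Set (ι → ℝ) :=
  {t | t ∈ Icc (0 : ι → ℝ) 1 ∧ ∃ i, t i = 0 ∨ t i = 1}

theorem volume_nhd_image_cubeBoundary_le {Ψ : (ι → ℝ) → (ι → ℝ)} {L : NNReal}
    (hΨ : LipschitzOnWith L Ψ (Icc 0 1)) {ρ : ℝ} (hρ : 0 ≤ ρ) {m : ℕ} (hm : 0 < m) :
    volume {y : ι → ℝ | ∃ t ∈ cubeBoundary ι, dist y (Ψ t) ≤ ρ} ≤
      ENNReal.ofReal (2 * Fintype.card ι * (((m : ℝ) + 1) ^ (Fintype.card ι - 1) *
        (2 * (L / m + ρ)) ^ Fintype.card ι)) := by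
  have hsub : {y : ι → ℝ | ∃ t ∈ cubeBoundary ι, dist y (Ψ t) ≤ ρ} ⊆
      ⋃ p : ι × Bool, {y : ι → ℝ | ∃ s ∈ Icc (0 : {j : ι // j ≠ p.1} → ℝ) 1,
        dist y ((Ψ ∘ insertCoord p.1 (if p.2 then 1 else 0)) s) ≤ ρ} := by
    rintro y ⟨t, ⟨ht, i, hi⟩, hyt⟩
    rw [mem_iUnion]
    rcases hi with hi | hi
    · refine ⟨(i, false), fun j ↦ t j.1, ⟨fun j ↦ ht.1 j.1, fun j ↦ ht.2 j.1⟩, ?_⟩
      have := eq_insertCoord i t
      rw [hi] at this
      simp only [Function.comp_apply, Bool.false_eq_true, if_false]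
      rw [← this]
      exact hyt
    · refine ⟨(i, true), fun j ↦ t j.1, ⟨fun j ↦ ht.1 j.1, fun j ↦ ht.2 j.1⟩, ?_⟩
      have := eq_insertCoord i t
      rw [hi] at this
      simp only [Function.comp_apply, if_true]
      rw [← this]
      exact hyt
  refine (measure_mono hsub).trans ((measure_iUnion_fintype_le _ _).trans ?_)
  have hone : ∀ p : ι × Bool,
      volume {y : ι → ℝ | ∃ s ∈ Icc (0 : {j : ι // j ≠ p.1} → ℝ) 1,
        dist y ((Ψ ∘ insertCoord p.1 (if p.2 then 1 else 0)) s) ≤ ρ} ≤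
      ENNReal.ofReal (((m : ℝ) + 1) ^ (Fintype.card ι - 1) *
        (2 * (L / m + ρ)) ^ Fintype.card ι) := by
    intro p
    have hb : (if p.2 then (1 : ℝ) else 0) ∈ Icc (0 : ℝ) 1 := by
      split_ifs <;> simp
    have hlip : LipschitzOnWith L (Ψ ∘ insertCoord p.1 (if p.2 then 1 else 0)) (Icc 0 1) := by
      have := hΨ.comp ((lipschitzWith_insertCoord p.1 (if p.2 then 1 else 0)).lipschitzOnWith
        (s := Icc 0 1)) (fun s hs ↦ insertCoord_mem_Icc p.1 hb hs)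
      simpa using this
    have := volume_nhd_image_cube_le hlip hρ hm
    have hcard : Fintype.card {j : ι // j ≠ p.1} = Fintype.card ι - 1 := by
      rw [Fintype.card_subtype_compl, Fintype.card_subtype_eq]
    rwa [hcard] at this
  refine (Finset.sum_le_sum fun p _ ↦ hone p).trans ?_
  rw [Finset.sum_const, Finset.card_univ, Fintype.card_prod, Fintype.card_bool, nsmul_eq_mul,
    ENNReal.ofReal_mul (by positivity : (0 : ℝ) ≤ 2 * Fintype.card ι)]
  refine le_of_eq ?_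
  congr 1
  rw [← ENNReal.ofReal_natCast]
  congr 1
  push_cast
  ring

/-- The closed `ε`-thickening of the image of the boundary of the unit cube under a map which is
Lipschitz on the cube has volume `O(ε)`. -/
theorem volume_cthickening_image_cubeBoundary_le [Nonempty ι] {Ψ : (ι → ℝ) → (ι → ℝ)} {L : NNReal}
    (hΨ : LipschitzOnWith L Ψ (Icc 0 1)) {ε : ℝ} (hε : 0 < ε) (hε1 : ε ≤ 1) :
    volume (cthickening ε (Ψ '' cubeBoundary ι)) ≤
      ENNReal.ofReal (2 * Fintype.card ι * (3 ^ (Fintype.card ι - 1) *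
        (2 * (L + 2)) ^ Fintype.card ι) * ε) := by
  obtain ⟨d, hd⟩ : ∃ d, Fintype.card ι = d + 1 :=
    Nat.exists_eq_succ_of_ne_zero Fintype.card_ne_zero
  have hsub : cthickening ε (Ψ '' cubeBoundary ι) ⊆
      {y : ι → ℝ | ∃ t ∈ cubeBoundary ι, dist y (Ψ t) ≤ 2 * ε} := by
    intro y hy
    have hy' := cthickening_subset_thickening' (by linarith : (0 : ℝ) < 2 * ε)
      (by linarith : ε < 2 * ε) _ hy
    rw [mem_thickening_iff] at hy'
    obtain ⟨z, ⟨t, ht, rfl⟩, hz⟩ := hy'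
    exact ⟨t, ht, hz.le⟩
  set m : ℕ := ⌈1 / ε⌉₊ with hm_def
  have h1ε : 1 ≤ 1 / ε := by rw [le_div_iff₀ hε]; linarith
  have hm : 0 < m := Nat.ceil_pos.mpr (by linarith)
  have hm' : (0 : ℝ) < m := Nat.cast_pos.mpr hm
  have hm1 : 1 / ε ≤ m := Nat.le_ceil _
  have hm2 : (m : ℝ) < 1 / ε + 1 := Nat.ceil_lt_add_one (by linarith)
  have hm3 : (m : ℝ) + 1 ≤ 3 / ε := by
    have : (3 : ℝ) / ε = 1 / ε + 1 / ε + 1 / ε := by ring
    linarith
  have hm4 : 1 / (m : ℝ) ≤ ε := by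
    rw [div_le_iff₀ hm']
    have := (div_le_iff₀ hε).mp hm1
    linarith
  have hLm : (L : ℝ) / m ≤ L * ε := by
    rw [div_eq_mul_one_div]
    exact mul_le_mul_of_nonneg_left hm4 L.2
  refine (measure_mono hsub).trans
    ((volume_nhd_image_cubeBoundary_le hΨ (by linarith : (0 : ℝ) ≤ 2 * ε) hm).trans ?_)
  apply ENNReal.ofReal_le_ofReal
  rw [hd, Nat.add_sub_cancel, mul_assoc (2 * ((d + 1 : ℕ) : ℝ))]
  refine mul_le_mul_of_nonneg_left ?_ (by positivity)
  have hL0 : (0 : ℝ) ≤ L := L.2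
  calc ((m : ℝ) + 1) ^ d * (2 * (L / m + 2 * ε)) ^ (d + 1)
      ≤ (3 / ε) ^ d * (2 * ((L + 2) * ε)) ^ (d + 1) := by
        gcongr
        nlinarith
    _ = 3 ^ d * (2 * (L + 2)) ^ (d + 1) * ε := by
        rw [div_pow, ← mul_assoc, mul_pow, pow_succ ε]
        field_simp

end Boundary

end Fermat.Agent.H15

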