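import Mathlib.Algebra.Module.ZLattice.Covolume
import Mathlib.Analysis.Normed.Module.Convex
import Mathlib.Topology.MetricSpace.Thickening

/-!
# Quantitative lattice point counting (helper15)

For a `ℤ`-lattice `L = span ℤ (range b)` in a finite dimensional real normed space `E`, and a
bounded measurable set `X`, the number of lattice points in `X` times the volume of the
fundamental domain differs from the volume of `X` by at most the volume of the closed
`d`-thickening of the frontier of `X`, where `d = ∑ i, ‖b i‖`.
-/

set_option autoImplicit false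
set_option linter.unusedSectionVars false

noncomputable section

namespace Fermat.Agent.H15

open MeasureTheory Metric Set Submodule Module

/-- A segment joining a point of `X` to a point outside `X` meets the frontier of `X`. -/
theorem exists_mem_frontier_dist_le {E : Type*} [NormedAddCommGroup E] [NormedSpace ℝ E]
    {X : Set E} {y v : E} (hy : y ∈ X) (hv : v ∉ X) :
    ∃ z ∈ frontier X, dist y z ≤ dist y v ∧ dist v z ≤ dist y v := by
  by_contra hcon
  push Not at hcon
  have hseg : segment ℝ y v ⊆ interior X ∪ (closure X)ᶜ := by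
    intro z hz
    by_contra hz'
    rw [mem_union, not_or] at hz'
    have hzf : z ∈ frontier X := by
      rw [frontier, mem_sdiff]
      exact ⟨by simpa using hz'.2, hz'.1⟩
    have h1 := hcon z hzf
    have h2 : dist y z ≤ dist y v := by
      have := segment_subset_closedBall_left y v hz
      rw [mem_closedBall, dist_comm] at this
      exact this
    have h3 : dist v z ≤ dist y v := by
      have := segment_subset_closedBall_right y v hz
      rw [mem_closedBall, dist_comm] at this
      exact this
    exact absurd h3 (not_le.mpr (h1 h2))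
  have hpre : IsPreconnected (segment ℝ y v) := (convex_segment y v).isPreconnected
  have hdisj : Disjoint (interior X) (closure X)ᶜ := by
    rw [Set.disjoint_left]
    intro z hz hz'
    exact hz' (subset_closure (interior_subset hz))
  rcases hpre.subset_or_subset isOpen_interior isClosed_closure.isOpen_compl hdisj hseg with h | h
  · exact hv (interior_subset (h (right_mem_segment ℝ y v)))
  · exact (h (left_mem_segment ℝ y v)) (subset_closure hy)

section Count

variable {E : Type*} [NormedAddCommGroup E] [NormedSpace ℝ E] [FiniteDimensional ℝ E]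
  [MeasurableSpace E] [BorelSpace E] {ι : Type*} [Fintype ι] (b : Basis ι ℝ E)
  (μ : Measure E) [μ.IsAddHaarMeasure]

/-- the translate of the fundamental domain by `v`. -/
def cell (v : E) : Set E := (fun y ↦ y + (-v)) ⁻¹' (ZSpan.fundamentalDomain b)

theorem mem_cell {v y : E} : y ∈ cell b v ↔ y - v ∈ ZSpan.fundamentalDomain b := by
  rw [cell, mem_preimage, sub_eq_add_neg]

theorem measurableSet_cell (v : E) : MeasurableSet (cell b v) :=
  (ZSpan.fundamentalDomain_measurableSet b).preimage (measurable_add_const _)

theorem measure_cell (v : E) : μ (cell b v) = μ (ZSpan.fundamentalDomain b) := by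
  rw [cell, measure_preimage_add_right]

theorem eq_floor_of_mem_cell {v y : E} (hv : v ∈ span ℤ (Set.range b)) (hy : y ∈ cell b v) :
    v = ZSpan.floor b y := by
  rw [mem_cell] at hy
  have h1 : ZSpan.fract b (y - v) = y - v := ZSpan.fract_eq_self.mpr hy
  have h2 : ZSpan.fract b (y - v) = ZSpan.fract b y := by
    rw [sub_eq_add_neg]
    exact ZSpan.fract_add_ZSpan b y (Submodule.neg_mem _ hv)
  rw [h2, ZSpan.fract_apply] at h1
  have : (ZSpan.floor b y : E) = v := by
    have := congrArg (fun t ↦ y - t) h1
    simpa using this
  exact this.symm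

theorem mem_cell_floor (y : E) : y ∈ cell b (ZSpan.floor b y) := by
  rw [mem_cell, ← ZSpan.fract_apply]
  exact ZSpan.fract_mem_fundamentalDomain b y

theorem dist_le_of_mem_cell {v y : E} (hy : y ∈ cell b v) : dist y v ≤ ∑ i, ‖b i‖ := by
  rw [mem_cell] at hy
  rw [dist_eq_norm, ← ZSpan.fract_eq_self.mpr hy]
  exact ZSpan.norm_fract_le b _

theorem pairwiseDisjoint_cell :
    ((span ℤ (Set.range b) : Set E)).PairwiseDisjoint (cell b) := by
  intro v hv v' hv' hne
  rw [Function.onFun, Set.disjoint_left]
  intro y hy hy'
  exact hne ((eq_floor_of_mem_cell b hv hy).trans (eq_floor_of_mem_cell b hv' hy').symm)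

variable {X : Set E}

theorem iUnion_cell_subset :
    (⋃ v ∈ (X ∩ (span ℤ (Set.range b) : Set E)), cell b v) ⊆
      X ∪ cthickening (∑ i, ‖b i‖) (frontier X) := by
  intro y hy
  simp only [mem_iUnion, exists_prop] at hy
  obtain ⟨v, ⟨hvX, -⟩, hyv⟩ := hy
  by_cases hyX : y ∈ X
  · exact Or.inl hyX
  · right
    obtain ⟨z, hz, -, hz2⟩ := exists_mem_frontier_dist_le hvX hyX
    refine mem_cthickening_of_dist_le y z _ _ hz ?_
    calc dist y z ≤ dist v y := hz2
      _ = dist y v := dist_comm _ _
      _ ≤ _ := dist_le_of_mem_cell b hyv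

theorem subset_iUnion_cell_union :
    X ⊆ (⋃ v ∈ (X ∩ (span ℤ (Set.range b) : Set E)), cell b v) ∪
      cthickening (∑ i, ‖b i‖) (frontier X) := by
  intro y hy
  by_cases hv : (ZSpan.floor b y : E) ∈ X
  · left
    simp only [mem_iUnion, exists_prop]
    exact ⟨ZSpan.floor b y, ⟨hv, (ZSpan.floor b y).2⟩, mem_cell_floor b y⟩
  · right
    obtain ⟨z, hz, hz1, -⟩ := exists_mem_frontier_dist_le hy hv
    refine mem_cthickening_of_dist_le y z _ _ hz ?_
    exact hz1.trans (dist_le_of_mem_cell b (mem_cell_floor b y))

theorem measure_iUnion_cell (hX : Bornology.IsBounded X) :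
    μ (⋃ v ∈ (X ∩ (span ℤ (Set.range b) : Set E)), cell b v) =
      (Nat.card (X ∩ (span ℤ (Set.range b) : Set E) : Set E) : ENNReal) *
        μ (ZSpan.fundamentalDomain b) := by
  have hfin : (X ∩ (span ℤ (Set.range b) : Set E)).Finite := ZSpan.setFinite_inter b hX
  rw [measure_biUnion hfin.countable
    ((pairwiseDisjoint_cell b).subset inter_subset_right) (fun v _ ↦ measurableSet_cell b v)]
  simp_rw [measure_cell]
  have := hfin.fintype
  rw [tsum_fintype, Finset.sum_const, Finset.card_univ, nsmul_eq_mul, Nat.card_eq_fintype_card]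

/-- **Quantitative lattice point counting**, `ENNReal` version, upper bound. -/
theorem card_mul_measure_le (hX : Bornology.IsBounded X) :
    (Nat.card (X ∩ (span ℤ (Set.range b) : Set E) : Set E) : ENNReal) *
        μ (ZSpan.fundamentalDomain b) ≤ μ X + μ (cthickening (∑ i, ‖b i‖) (frontier X)) := by
  rw [← measure_iUnion_cell b μ hX]
  exact (measure_mono (iUnion_cell_subset b)).trans (measure_union_le _ _)

/-- **Quantitative lattice point counting**, `ENNReal` version, lower bound. -/
theorem measure_le_card_mul (hX : Bornology.IsBounded X) :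
    μ X ≤ (Nat.card (X ∩ (span ℤ (Set.range b) : Set E) : Set E) : ENNReal) *
        μ (ZSpan.fundamentalDomain b) + μ (cthickening (∑ i, ‖b i‖) (frontier X)) := by
  rw [← measure_iUnion_cell b μ hX]
  exact (measure_mono (subset_iUnion_cell_union b)).trans (measure_union_le _ _)

/-- **Quantitative lattice point counting**: the number of points of the lattice
`span ℤ (range b)` in a bounded set `X`, times the volume of the fundamental domain, differs from
the volume of `X` by at most the volume of the closed `∑ i, ‖b i‖`-thickening of the frontier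
of `X`. -/
theorem abs_card_mul_measureReal_sub_le (hX : Bornology.IsBounded X) :
    |(Nat.card (X ∩ (span ℤ (Set.range b) : Set E) : Set E) : ℝ) *
        μ.real (ZSpan.fundamentalDomain b) - μ.real X| ≤
      μ.real (cthickening (∑ i, ‖b i‖) (frontier X)) := by
  have hXfin : μ X ≠ ⊤ := hX.measure_lt_top.ne
  have hFfin : μ (ZSpan.fundamentalDomain b) ≠ ⊤ :=
    (ZSpan.fundamentalDomain_isBounded b).measure_lt_top.ne
  have hTfin : μ (cthickening (∑ i, ‖b i‖) (frontier X)) ≠ ⊤ :=
    (hX.closure.subset frontier_subset_closure).cthickening.measure_lt_top.ne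
  have h1 := card_mul_measure_le b μ hX
  have h2 := measure_le_card_mul b μ hX
  have h1' := ENNReal.toReal_mono (ENNReal.add_ne_top.mpr ⟨hXfin, hTfin⟩) h1
  have h2' := ENNReal.toReal_mono (ENNReal.add_ne_top.mpr
    ⟨ENNReal.mul_ne_top (ENNReal.natCast_ne_top _) hFfin, hTfin⟩) h2
  rw [ENNReal.toReal_add hXfin hTfin, ENNReal.toReal_mul, ENNReal.toReal_natCast] at h1'
  rw [ENNReal.toReal_add (ENNReal.mul_ne_top (ENNReal.natCast_ne_top _) hFfin) hTfin,
    ENNReal.toReal_mul, ENNReal.toReal_natCast] at h2'
  simp only [measureReal_def]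
  rw [abs_le]
  constructor <;> linarith

end Count

end Fermat.Agent.H15

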