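import Mathlib

/-!
# Euler product over the prime ideals of a Dedekind domain (helper15, P-S14 / C4a)

For a completely multiplicative `f : Ideal R → ℂ` with `f 1 = 1` which is absolutely summable
over the nonzero ideals, `∑ I, f I = ∏ v, (1 - f v)⁻¹` (product over the height one spectrum).

The proof is Euler's sieve: if `Z_S` is the sum of `f` over the ideals not divisible by any prime
of the finite set `S`, then `Z_(S ∪ {v}) = (1 - f v) Z_S` and `Z_S → f 1 = 1`.
-/

set_option autoImplicit false
set_option linter.unusedSectionVars false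

noncomputable section

namespace Fermat.Agent.H15

open IsDedekindDomain Ideal Filter Topology
open scoped nonZeroDivisors

section Euler

variable {R : Type*} [CommRing R] [IsDedekindDomain R]

/-- the set of nonzero ideals not divisible by any prime of `S`. -/
def coprimeSet (S : Finset (HeightOneSpectrum R)) : Set (Ideal R)⁰ :=
  {I | ∀ v ∈ S, ¬ v.asIdeal ∣ (I : Ideal R)}

/-- the sum of `f` over the nonzero ideals not divisible by any prime of `S`. -/
def sieveSum (f : Ideal R → ℂ) (S : Finset (HeightOneSpectrum R)) : ℂ :=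
  ∑' I : (Ideal R)⁰, (coprimeSet S).indicator (fun I : (Ideal R)⁰ ↦ f I) I

/-- a prime as a nonzero ideal. -/
def primeNZ (v : HeightOneSpectrum R) : (Ideal R)⁰ :=
  ⟨v.asIdeal, mem_nonZeroDivisors_of_ne_zero v.ne_bot⟩

theorem mulPrime_injective (v : HeightOneSpectrum R) :
    Function.Injective (fun J : (Ideal R)⁰ ↦ primeNZ v * J) := by
  intro J J' h
  have h' : v.asIdeal * (J : Ideal R) = v.asIdeal * (J' : Ideal R) := congrArg Subtype.val h
  exact Subtype.ext (mul_left_cancel₀ v.ne_bot h')

theorem prime_dvd_prime_iff (v w : HeightOneSpectrum R) : w.asIdeal ∣ v.asIdeal ↔ w = v := by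
  constructor
  · intro h
    have hle : v.asIdeal ≤ w.asIdeal := Ideal.le_of_dvd h
    have := (v.isMaximal.eq_of_le w.isPrime.ne_top hle)
    exact (HeightOneSpectrum.ext this).symm
  · rintro rfl
    exact dvd_rfl

theorem mulPrime_mem_coprimeSet_iff {S : Finset (HeightOneSpectrum R)} {v : HeightOneSpectrum R}
    (hv : v ∉ S) (J : (Ideal R)⁰) : primeNZ v * J ∈ coprimeSet S ↔ J ∈ coprimeSet S := by
  simp only [coprimeSet, Set.mem_ofPred_eq]
  refine forall₂_congr fun w hw ↦ ?_
  have hwv : ¬ w.asIdeal ∣ v.asIdeal := by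
    rw [prime_dvd_prime_iff]
    rintro rfl
    exact hv hw
  show ¬ w.asIdeal ∣ v.asIdeal * (J : Ideal R) ↔ _
  rw [w.prime.dvd_mul]
  tauto

variable (f : Ideal R → ℂ)

theorem summable_indicator_of_summable_norm
    (hsum : Summable (fun I : (Ideal R)⁰ ↦ ‖f I‖)) (A : Set (Ideal R)⁰) :
    Summable (A.indicator (fun I : (Ideal R)⁰ ↦ f I)) :=
  (Summable.of_norm hsum).indicator A

theorem sieveSum_empty : sieveSum f ∅ = ∑' I : (Ideal R)⁰, f I := by
  have : coprimeSet (∅ : Finset (HeightOneSpectrum R)) = Set.univ := by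
    ext I; simp [coprimeSet]
  simp [sieveSum, this]

/-- **Euler's sieve step.** -/
theorem sieveSum_insert (hmul : ∀ I J, f (I * J) = f I * f J)
    (hsum : Summable (fun I : (Ideal R)⁰ ↦ ‖f I‖)) [DecidableEq (HeightOneSpectrum R)]
    {S : Finset (HeightOneSpectrum R)} {v : HeightOneSpectrum R} (hv : v ∉ S) :
    sieveSum f (insert v S) = (1 - f v.asIdeal) * sieveSum f S := by
  set F : (Ideal R)⁰ → ℂ := fun I ↦ f I with hF
  set B : Set (Ideal R)⁰ := {I | I ∈ coprimeSet S ∧ v.asIdeal ∣ (I : Ideal R)} with hB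
  have hsplit : ∀ I, (coprimeSet S).indicator F I =
      (coprimeSet (insert v S)).indicator F I + B.indicator F I := by
    intro I
    by_cases h1 : I ∈ coprimeSet S
    · by_cases h2 : v.asIdeal ∣ (I : Ideal R)
      · have hB' : I ∈ B := ⟨h1, h2⟩
        have hins : I ∉ coprimeSet (insert v S) :=
          fun h ↦ h v (Finset.mem_insert_self v S) h2
        simp [Set.indicator_of_mem h1, Set.indicator_of_mem hB', Set.indicator_of_notMem hins]
      · have hB' : I ∉ B := fun h ↦ h2 h.2
        have hins : I ∈ coprimeSet (insert v S) := by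
          intro w hw
          rcases Finset.mem_insert.mp hw with rfl | hw
          · exact h2
          · exact h1 w hw
        simp [Set.indicator_of_mem h1, Set.indicator_of_notMem hB', Set.indicator_of_mem hins]
    · have hB' : I ∉ B := fun h ↦ h1 h.1
      have hins : I ∉ coprimeSet (insert v S) :=
        fun h ↦ h1 fun w hw ↦ h w (Finset.mem_insert_of_mem hw)
      simp [Set.indicator_of_notMem h1, Set.indicator_of_notMem hB',
        Set.indicator_of_notMem hins]
  have hB_eq : ∑' I, B.indicator F I = f v.asIdeal * sieveSum f S := by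
    have hsupp : Function.support (B.indicator F) ⊆
        Set.range (fun J : (Ideal R)⁰ ↦ primeNZ v * J) := by
      intro I hI
      have hIB : I ∈ B := by
        by_contra h
        exact hI (Set.indicator_of_notMem h F)
      obtain ⟨J, hJ⟩ := hIB.2
      have hJ0 : J ≠ 0 := by
        rintro rfl
        have hI0 : (I : Ideal R) ≠ 0 := nonZeroDivisors.coe_ne_zero I
        exact hI0 (by simpa using hJ)
      exact ⟨⟨J, mem_nonZeroDivisors_of_ne_zero hJ0⟩, Subtype.ext hJ.symm⟩
    rw [← (mulPrime_injective v).tsum_eq hsupp, sieveSum, ← tsum_mul_left]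
    congr 1
    funext J
    by_cases hJ : J ∈ coprimeSet S
    · have h1 : primeNZ v * J ∈ B :=
        ⟨(mulPrime_mem_coprimeSet_iff hv J).mpr hJ, Dvd.intro _ rfl⟩
      rw [Set.indicator_of_mem h1, Set.indicator_of_mem hJ]
      show f (v.asIdeal * (J : Ideal R)) = _
      rw [hmul]
    · have h1 : primeNZ v * J ∉ B := fun h ↦ hJ ((mulPrime_mem_coprimeSet_iff hv J).mp h.1)
      rw [Set.indicator_of_notMem h1, Set.indicator_of_notMem hJ, mul_zero]
  have h1 := summable_indicator_of_summable_norm f hsum (coprimeSet (insert v S))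
  have h2 := summable_indicator_of_summable_norm f hsum B
  have hZ : sieveSum f S = sieveSum f (insert v S) + f v.asIdeal * sieveSum f S := by
    rw [← hB_eq]
    show ∑' I, (coprimeSet S).indicator F I = _
    rw [sieveSum, ← Summable.tsum_add h1 h2]
    exact tsum_congr hsplit
  linear_combination -hZ

theorem sieveSum_eq_prod_mul (hmul : ∀ I J, f (I * J) = f I * f J)
    (hsum : Summable (fun I : (Ideal R)⁰ ↦ ‖f I‖)) (S : Finset (HeightOneSpectrum R)) :
    sieveSum f S = (∏ v ∈ S, (1 - f v.asIdeal)) * ∑' I : (Ideal R)⁰, f I := by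
  classical
  induction S using Finset.induction_on with
  | empty => simp [sieveSum_empty]
  | insert v S hv ih =>
    rw [sieveSum_insert f hmul hsum hv, ih, Finset.prod_insert hv, mul_assoc]

theorem exists_prime_dvd {I : Ideal R} (h0 : I ≠ ⊥) (h1 : I ≠ ⊤) :
    ∃ v : HeightOneSpectrum R, v.asIdeal ∣ I := by
  obtain ⟨M, hM, hIM⟩ := Ideal.exists_le_maximal I h1
  have hM0 : M ≠ ⊥ := by
    rintro rfl
    exact h0 (le_bot_iff.mp hIM)
  exact ⟨⟨M, hM.isPrime, hM0⟩, Ideal.dvd_iff_le.mpr hIM⟩

theorem one_mem_coprimeSet (S : Finset (HeightOneSpectrum R)) :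
    (1 : (Ideal R)⁰) ∈ coprimeSet S := by
  intro v _ hdvd
  have : v.asIdeal = ⊤ := by
    have := isUnit_of_dvd_one hdvd
    rwa [Ideal.isUnit_iff] at this
  exact v.isPrime.ne_top this

theorem tendsto_sieveSum (h1 : f 1 = 1) (hsum : Summable (fun I : (Ideal R)⁰ ↦ ‖f I‖)) :
    Tendsto (sieveSum f) atTop (𝓝 1) := by
  classical
  set F : (Ideal R)⁰ → ℂ := fun I ↦ f I with hF
  have hFs : Summable F := Summable.of_norm hsum
  rw [Metric.tendsto_atTop]
  intro ε hε
  obtain ⟨A, hA⟩ := hFs.tsum_vanishing (Metric.ball_mem_nhds (0 : ℂ) hε)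
  have hfin : (⋃ I ∈ (A : Set (Ideal R)⁰),
      {v : HeightOneSpectrum R | v.asIdeal ∣ (I : Ideal R)}).Finite :=
    A.finite_toSet.biUnion fun I _ ↦ Ideal.finite_factors (nonZeroDivisors.coe_ne_zero I)
  refine ⟨hfin.toFinset, fun S hS ↦ ?_⟩
  set t : Set (Ideal R)⁰ := {I | I ∈ coprimeSet S ∧ I ≠ 1} with ht
  have hdisj : Disjoint t (A : Set (Ideal R)⁰) := by
    rw [Set.disjoint_left]
    rintro I ⟨hIS, hI1⟩ hIA
    have hItop : (I : Ideal R) ≠ ⊤ := by
      intro h
      apply hI1
      exact Subtype.ext (by simpa using h)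
    obtain ⟨v, hv⟩ := exists_prime_dvd (nonZeroDivisors.coe_ne_zero I) hItop
    have hvS : v ∈ S := by
      apply hS
      rw [Set.Finite.mem_toFinset]
      simp only [Set.mem_iUnion, Set.mem_ofPred_eq]
      exact ⟨I, hIA, hv⟩
    exact hIS v hvS hv
  have hsplit : ∀ I, (coprimeSet S).indicator F I =
      ({1} : Set (Ideal R)⁰).indicator F I + t.indicator F I := by
    intro I
    by_cases hI1 : I = 1
    · subst hI1
      have h2 : (1 : (Ideal R)⁰) ∉ t := fun h ↦ h.2 rfl
      rw [Set.indicator_of_mem (one_mem_coprimeSet S), Set.indicator_of_mem (by simp),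
        Set.indicator_of_notMem h2, add_zero]
    · have h1' : I ∉ ({1} : Set (Ideal R)⁰) := by simpa using hI1
      by_cases hIS : I ∈ coprimeSet S
      · have h2 : I ∈ t := ⟨hIS, hI1⟩
        rw [Set.indicator_of_mem hIS, Set.indicator_of_notMem h1', Set.indicator_of_mem h2,
          zero_add]
      · have h2 : I ∉ t := fun h ↦ hIS h.1
        rw [Set.indicator_of_notMem hIS, Set.indicator_of_notMem h1',
          Set.indicator_of_notMem h2, zero_add]
  have hsum1 : Summable (({1} : Set (Ideal R)⁰).indicator F) := hFs.indicator _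
  have hsumt : Summable (t.indicator F) := hFs.indicator _
  have hone : ∑' I, ({1} : Set (Ideal R)⁰).indicator F I = 1 := by
    rw [tsum_eq_single 1]
    · rw [Set.indicator_of_mem (by simp)]
      simpa [hF] using h1
    · intro b hb
      exact Set.indicator_of_notMem (by simpa using hb) F
  have hZ : sieveSum f S = 1 + ∑' b : t, F b := by
    rw [sieveSum, tsum_congr hsplit, Summable.tsum_add hsum1 hsumt, hone, tsum_subtype]
  have := hA t hdisj
  rw [Metric.mem_ball, dist_zero_right] at this
  rw [hZ, dist_eq_norm, add_sub_cancel_left]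
  exact this

/-- **Euler product over the prime ideals of a Dedekind domain**, for a completely
multiplicative function which is absolutely summable over the nonzero ideals. -/
theorem eulerProduct_ideal_hasProd (h1 : f 1 = 1) (hmul : ∀ I J, f (I * J) = f I * f J)
    (hsum : Summable (fun I : (Ideal R)⁰ ↦ ‖f I‖)) :
    HasProd (fun v : HeightOneSpectrum R ↦ (1 - f v.asIdeal)⁻¹) (∑' I : (Ideal R)⁰, f I) := by
  set Z : ℂ := ∑' I : (Ideal R)⁰, f I with hZ
  have hlim := tendsto_sieveSum f h1 hsum
  have heq := sieveSum_eq_prod_mul f hmul hsum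
  have hZ0 : Z ≠ 0 := by
    intro h0
    have : sieveSum f = fun _ ↦ 0 := by
      funext S
      rw [heq S, ← hZ, h0, mul_zero]
    rw [this] at hlim
    exact zero_ne_one (tendsto_nhds_unique tendsto_const_nhds hlim)
  have hev : ∀ᶠ S in atTop, sieveSum f S ≠ 0 :=
    hlim.eventually_ne one_ne_zero
  have hlim2 : Tendsto (fun S ↦ Z / sieveSum f S) atTop (𝓝 Z) := by
    have := (tendsto_const_nhds (x := Z)).div hlim one_ne_zero
    rw [div_one] at this
    exact this
  rw [HasProd]
  refine hlim2.congr' ?_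
  filter_upwards [hev] with S hS
  rw [heq S, ← hZ] at hS ⊢
  have hP : ∏ v ∈ S, (1 - f v.asIdeal) ≠ 0 := left_ne_zero_of_mul hS
  rw [Finset.prod_inv_distrib]
  field_simp

end Euler

end Fermat.Agent.H15
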