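import Fermat.Agent.H15.S14Euler

/-!
# Exponential bounds for Euler products (helper15, P-S14 / C4)

For a completely multiplicative `f` on the ideals of a Dedekind domain, absolutely summable over
the nonzero ideals, with `Z = ∑ I, f I`:

* `exp (∑ v, (Re (f v) - ‖f v‖ ^ 2)) ≤ ‖Z‖`;
* `‖Z‖ ≤ exp (∑ v, (‖f v‖ + 2 * ‖f v‖ ^ 2))` if `‖f v‖ ≤ 1/2` for all primes `v`.
-/

set_option autoImplicit false
set_option linter.unusedSectionVars false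

noncomputable section

namespace Fermat.Agent.H15

open IsDedekindDomain Ideal Filter Topology
open scoped nonZeroDivisors

/-- `exp (Re z - ‖z‖²) ≤ ‖(1 - z)⁻¹‖` for `z ≠ 1`. -/
theorem exp_le_norm_one_sub_inv {z : ℂ} (hz : z ≠ 1) :
    Real.exp (z.re - ‖z‖ ^ 2) ≤ ‖(1 - z)⁻¹‖ := by
  have h0 : 0 < ‖1 - z‖ := norm_pos_iff.mpr (sub_ne_zero.mpr hz.symm)
  rw [norm_inv, le_inv_comm₀ (Real.exp_pos _) h0, ← Real.exp_neg]
  have hsq : ‖1 - z‖ ^ 2 = 1 - 2 * z.re + ‖z‖ ^ 2 := by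
    rw [Complex.sq_norm, Complex.sq_norm, Complex.normSq_apply, Complex.normSq_apply]
    simp only [Complex.sub_re, Complex.one_re, Complex.sub_im, Complex.one_im]
    ring
  have h1 : ‖1 - z‖ ^ 2 ≤ Real.exp (-(z.re - ‖z‖ ^ 2)) ^ 2 := by
    rw [← Real.exp_nat_mul, hsq]
    have := Real.add_one_le_exp ((2 : ℕ) * -(z.re - ‖z‖ ^ 2))
    push_cast at this ⊢
    nlinarith [sq_nonneg ‖z‖]
  exact (pow_le_pow_iff_left₀ h0.le (Real.exp_pos _).le two_ne_zero).mp h1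

/-- `‖(1 - z)⁻¹‖ ≤ exp (‖z‖ + 2 ‖z‖²)` for `‖z‖ ≤ 1/2`. -/
theorem norm_one_sub_inv_le_exp {z : ℂ} (hz : ‖z‖ ≤ 1 / 2) :
    ‖(1 - z)⁻¹‖ ≤ Real.exp (‖z‖ + 2 * ‖z‖ ^ 2) := by
  have hx0 : 0 ≤ ‖z‖ := norm_nonneg z
  have h1 : 1 - ‖z‖ ≤ ‖1 - z‖ := by
    have := norm_sub_norm_le (1 : ℂ) z
    simpa using this
  have hpos : 0 < 1 - ‖z‖ := by linarith
  rw [norm_inv]
  calc ‖1 - z‖⁻¹ ≤ (1 - ‖z‖)⁻¹ := inv_anti₀ hpos h1
    _ ≤ 1 + (‖z‖ + 2 * ‖z‖ ^ 2) := by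
        rw [inv_le_iff_one_le_mul₀ hpos]
        nlinarith [sq_nonneg ‖z‖, mul_nonneg hx0 (sq_nonneg ‖z‖)]
    _ ≤ Real.exp (‖z‖ + 2 * ‖z‖ ^ 2) := by
        have := Real.add_one_le_exp (‖z‖ + 2 * ‖z‖ ^ 2)
        linarith

section Bounds

variable {R : Type*} [CommRing R] [IsDedekindDomain R] (f : Ideal R → ℂ)

theorem primeNZ_injective : Function.Injective (primeNZ : HeightOneSpectrum R → (Ideal R)⁰) := by
  intro v w h
  exact HeightOneSpectrum.ext (congrArg Subtype.val h)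

theorem map_pow_of_mul (h1 : f 1 = 1) (hmul : ∀ I J, f (I * J) = f I * f J) (I : Ideal R)
    (k : ℕ) : f (I ^ k) = f I ^ k := by
  induction k with
  | zero => simpa using h1
  | succ k ih => rw [pow_succ, hmul, ih, pow_succ]

/-- the values of `f` at the primes are summable. -/
theorem summable_norm_prime (hsum : Summable (fun I : (Ideal R)⁰ ↦ ‖f I‖)) :
    Summable (fun v : HeightOneSpectrum R ↦ ‖f v.asIdeal‖) := by
  have := hsum.comp_injective (primeNZ_injective (R := R))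
  refine this.congr fun v ↦ ?_
  simp only [Function.comp_apply, primeNZ]

/-- the value of `f` at a prime has norm `< 1`. -/
theorem norm_prime_lt_one (h1 : f 1 = 1) (hmul : ∀ I J, f (I * J) = f I * f J)
    (hsum : Summable (fun I : (Ideal R)⁰ ↦ ‖f I‖)) (v : HeightOneSpectrum R) :
    ‖f v.asIdeal‖ < 1 := by
  have hinj : Function.Injective (fun k : ℕ ↦ (primeNZ v) ^ k) := by
    intro k l h
    have h' : v.asIdeal ^ k = v.asIdeal ^ l := by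
      have := congrArg Subtype.val h
      simpa [primeNZ] using this
    exact (Ideal.pow_right_strictAnti v.asIdeal v.ne_bot v.isPrime.ne_top).injective h'
  have hs := hsum.comp_injective hinj
  have hs' : Summable (fun k : ℕ ↦ ‖f v.asIdeal‖ ^ k) := by
    refine hs.congr fun k ↦ ?_
    simp only [Function.comp_apply]
    rw [← norm_pow, ← map_pow_of_mul f h1 hmul]
    simp [primeNZ]
  have := summable_geometric_iff_norm_lt_one.mp hs'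
  simpa using this

theorem summable_re_sub_sq (h1 : f 1 = 1) (hmul : ∀ I J, f (I * J) = f I * f J)
    (hsum : Summable (fun I : (Ideal R)⁰ ↦ ‖f I‖)) :
    Summable (fun v : HeightOneSpectrum R ↦ (f v.asIdeal).re - ‖f v.asIdeal‖ ^ 2) := by
  have hs := summable_norm_prime f hsum
  refine Summable.of_norm_bounded (g := fun v ↦ 2 * ‖f v.asIdeal‖) (hs.mul_left 2) fun v ↦ ?_
  have hlt := norm_prime_lt_one f h1 hmul hsum v
  have hre := Complex.abs_re_le_norm (f v.asIdeal)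
  have h0 := norm_nonneg (f v.asIdeal)
  rw [Real.norm_eq_abs, abs_le]
  have hsq : ‖f v.asIdeal‖ ^ 2 ≤ ‖f v.asIdeal‖ := by nlinarith
  have := abs_le.mp hre
  constructor <;> nlinarith

theorem summable_norm_add_sq (h1 : f 1 = 1) (hmul : ∀ I J, f (I * J) = f I * f J)
    (hsum : Summable (fun I : (Ideal R)⁰ ↦ ‖f I‖)) :
    Summable (fun v : HeightOneSpectrum R ↦ ‖f v.asIdeal‖ + 2 * ‖f v.asIdeal‖ ^ 2) := by
  have hs := summable_norm_prime f hsum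
  refine Summable.of_norm_bounded (g := fun v ↦ 3 * ‖f v.asIdeal‖) (hs.mul_left 3) fun v ↦ ?_
  have hlt := norm_prime_lt_one f h1 hmul hsum v
  have h0 := norm_nonneg (f v.asIdeal)
  rw [Real.norm_eq_abs, abs_of_nonneg (by positivity)]
  nlinarith

/-- **Lower bound for an Euler product.** -/
theorem exp_tsum_le_norm_tsum (h1 : f 1 = 1) (hmul : ∀ I J, f (I * J) = f I * f J)
    (hsum : Summable (fun I : (Ideal R)⁰ ↦ ‖f I‖)) :
    Real.exp (∑' v : HeightOneSpectrum R, ((f v.asIdeal).re - ‖f v.asIdeal‖ ^ 2)) ≤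
      ‖∑' I : (Ideal R)⁰, f I‖ := by
  have hprod := eulerProduct_ideal_hasProd f h1 hmul hsum
  have hlim1 : Tendsto (fun S : Finset (HeightOneSpectrum R) ↦
      ‖∏ v ∈ S, (1 - f v.asIdeal)⁻¹‖) atTop (𝓝 ‖∑' I : (Ideal R)⁰, f I‖) :=
    (continuous_norm.tendsto _).comp hprod
  have hlim2 : Tendsto (fun S : Finset (HeightOneSpectrum R) ↦
      Real.exp (∑ v ∈ S, ((f v.asIdeal).re - ‖f v.asIdeal‖ ^ 2))) atTop
      (𝓝 (Real.exp (∑' v : HeightOneSpectrum R, ((f v.asIdeal).re - ‖f v.asIdeal‖ ^ 2)))) :=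
    (Real.continuous_exp.tendsto _).comp (summable_re_sub_sq f h1 hmul hsum).hasSum
  refine le_of_tendsto_of_tendsto' hlim2 hlim1 fun S ↦ ?_
  rw [Real.exp_sum, norm_prod]
  refine Finset.prod_le_prod (fun v _ ↦ (Real.exp_pos _).le) fun v _ ↦ ?_
  refine exp_le_norm_one_sub_inv ?_
  intro h
  have := norm_prime_lt_one f h1 hmul hsum v
  rw [h, norm_one] at this
  exact lt_irrefl _ this

/-- **Upper bound for an Euler product.** -/
theorem norm_tsum_le_exp_tsum (h1 : f 1 = 1) (hmul : ∀ I J, f (I * J) = f I * f J)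
    (hsum : Summable (fun I : (Ideal R)⁰ ↦ ‖f I‖))
    (hhalf : ∀ v : HeightOneSpectrum R, ‖f v.asIdeal‖ ≤ 1 / 2) :
    ‖∑' I : (Ideal R)⁰, f I‖ ≤
      Real.exp (∑' v : HeightOneSpectrum R, (‖f v.asIdeal‖ + 2 * ‖f v.asIdeal‖ ^ 2)) := by
  have hprod := eulerProduct_ideal_hasProd f h1 hmul hsum
  have hlim1 : Tendsto (fun S : Finset (HeightOneSpectrum R) ↦
      ‖∏ v ∈ S, (1 - f v.asIdeal)⁻¹‖) atTop (𝓝 ‖∑' I : (Ideal R)⁰, f I‖) :=
    (continuous_norm.tendsto _).comp hprod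
  have hlim2 : Tendsto (fun S : Finset (HeightOneSpectrum R) ↦
      Real.exp (∑ v ∈ S, (‖f v.asIdeal‖ + 2 * ‖f v.asIdeal‖ ^ 2))) atTop
      (𝓝 (Real.exp (∑' v : HeightOneSpectrum R, (‖f v.asIdeal‖ + 2 * ‖f v.asIdeal‖ ^ 2)))) :=
    (Real.continuous_exp.tendsto _).comp (summable_norm_add_sq f h1 hmul hsum).hasSum
  refine le_of_tendsto_of_tendsto' hlim1 hlim2 fun S ↦ ?_
  rw [Real.exp_sum, norm_prod]
  exact Finset.prod_le_prod (fun v _ ↦ norm_nonneg _) fun v _ ↦ norm_one_sub_inv_le_exp (hhalf v)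

end Bounds

section NumberField

open NumberField

variable (K : Type*) [Field K] [NumberField K]

/-- the completely multiplicative function `I ↦ χ([I]) N(I)^(-s)` on the ideals of `𝓞 K`
(value `0` at the zero ideal). -/
def classLTerm (χ : ClassGroup (𝓞 K) →* ℂˣ) (s : ℝ) (I : Ideal (𝓞 K)) : ℂ :=
  open Classical in
  if h : I = 0 then 0 else
    ((χ (ClassGroup.mk0 ⟨I, mem_nonZeroDivisors_of_ne_zero h⟩) : ℂˣ) : ℂ) *
      (((absNorm I : ℝ) ^ (-s) : ℝ) : ℂ)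

variable {K}

theorem classLTerm_coe (χ : ClassGroup (𝓞 K) →* ℂˣ) (s : ℝ) (I : (Ideal (𝓞 K))⁰) :
    classLTerm K χ s (I : Ideal (𝓞 K)) =
      ((χ (ClassGroup.mk0 I) : ℂˣ) : ℂ) * (((absNorm (I : Ideal (𝓞 K)) : ℝ) ^ (-s) : ℝ) : ℂ) := by
  rw [classLTerm, dif_neg (nonZeroDivisors.coe_ne_zero I)]

theorem norm_classChar (χ : ClassGroup (𝓞 K) →* ℂˣ) (c : ClassGroup (𝓞 K)) :
    ‖((χ c : ℂˣ) : ℂ)‖ = 1 := by
  have h : ((χ c : ℂˣ) : ℂ) ^ Fintype.card (ClassGroup (𝓞 K)) = 1 := by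
    rw [← Units.val_pow_eq_pow_val, ← map_pow, pow_card_eq_one, map_one, Units.val_one]
  exact Complex.norm_eq_one_of_pow_eq_one h Fintype.card_ne_zero

theorem norm_classLTerm_coe (χ : ClassGroup (𝓞 K) →* ℂˣ) (s : ℝ) (I : (Ideal (𝓞 K))⁰) :
    ‖classLTerm K χ s (I : Ideal (𝓞 K))‖ = (absNorm (I : Ideal (𝓞 K)) : ℝ) ^ (-s) := by
  rw [classLTerm_coe, norm_mul, norm_classChar, one_mul, Complex.norm_real,
    Real.norm_of_nonneg (by positivity)]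

theorem classLTerm_one (χ : ClassGroup (𝓞 K) →* ℂˣ) (s : ℝ) : classLTerm K χ s 1 = 1 := by
  have := classLTerm_coe χ s (1 : (Ideal (𝓞 K))⁰)
  simp only [OneMemClass.coe_one] at this
  rw [this]
  simp

theorem classLTerm_mul (χ : ClassGroup (𝓞 K) →* ℂˣ) (s : ℝ) (I J : Ideal (𝓞 K)) :
    classLTerm K χ s (I * J) = classLTerm K χ s I * classLTerm K χ s J := by
  by_cases hI : I = 0
  · simp [hI, classLTerm]
  by_cases hJ : J = 0
  · simp [hJ, classLTerm]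
  have hIJ : I * J ≠ 0 := mul_ne_zero hI hJ
  have e1 := classLTerm_coe χ s ⟨I, mem_nonZeroDivisors_of_ne_zero hI⟩
  have e2 := classLTerm_coe χ s ⟨J, mem_nonZeroDivisors_of_ne_zero hJ⟩
  have e3 := classLTerm_coe χ s
    (⟨I, mem_nonZeroDivisors_of_ne_zero hI⟩ * ⟨J, mem_nonZeroDivisors_of_ne_zero hJ⟩)
  simp only [Submonoid.coe_mul] at e1 e2 e3
  rw [e1, e2, e3, map_mul, map_mul, Units.val_mul, map_mul, Nat.cast_mul,
    Real.mul_rpow (Nat.cast_nonneg _) (Nat.cast_nonneg _)]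
  push_cast
  ring

theorem summable_norm_classLTerm (χ : ClassGroup (𝓞 K) →* ℂˣ) {s : ℝ}
    (hsum : Summable (fun I : (Ideal (𝓞 K))⁰ ↦ (absNorm (I : Ideal (𝓞 K)) : ℝ) ^ (-s))) :
    Summable (fun I : (Ideal (𝓞 K))⁰ ↦ ‖classLTerm K χ s (I : Ideal (𝓞 K))‖) :=
  hsum.congr fun I ↦ (norm_classLTerm_coe χ s I).symm

theorem two_le_absNorm (v : HeightOneSpectrum (𝓞 K)) : 2 ≤ absNorm v.asIdeal := by
  have h0 : absNorm v.asIdeal ≠ 0 := by
    rw [Ne, absNorm_eq_zero_iff]; exact v.ne_bot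
  have h1 : absNorm v.asIdeal ≠ 1 := by
    rw [Ne, absNorm_eq_one_iff]; exact v.isPrime.ne_top
  omega

theorem absNorm_rpow_neg_le_half (v : HeightOneSpectrum (𝓞 K)) {s : ℝ} (hs : 1 ≤ s) :
    (absNorm v.asIdeal : ℝ) ^ (-s) ≤ 1 / 2 := by
  have h2 : (2 : ℝ) ≤ absNorm v.asIdeal := by exact_mod_cast two_le_absNorm v
  calc (absNorm v.asIdeal : ℝ) ^ (-s) ≤ (2 : ℝ) ^ (-s) :=
        Real.rpow_le_rpow_of_nonpos (by norm_num) h2 (by linarith)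
    _ ≤ (2 : ℝ) ^ (-1 : ℝ) := Real.rpow_le_rpow_of_exponent_le (by norm_num) (by linarith)
    _ = 1 / 2 := by rw [Real.rpow_neg_one]; norm_num

/-- **Euler product for the `L`-series of a character of the class group** (real `s`, given
the summability of `∑ N(I)^(-s)`). -/
theorem classL_hasProd (χ : ClassGroup (𝓞 K) →* ℂˣ) {s : ℝ}
    (hsum : Summable (fun I : (Ideal (𝓞 K))⁰ ↦ (absNorm (I : Ideal (𝓞 K)) : ℝ) ^ (-s))) :
    HasProd (fun v : HeightOneSpectrum (𝓞 K) ↦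
        (1 - ((χ (ClassGroup.mk0 (primeNZ v)) : ℂˣ) : ℂ) *
          (((absNorm v.asIdeal : ℝ) ^ (-s) : ℝ) : ℂ))⁻¹)
      (∑' I : (Ideal (𝓞 K))⁰, ((χ (ClassGroup.mk0 I) : ℂˣ) : ℂ) *
          (((absNorm (I : Ideal (𝓞 K)) : ℝ) ^ (-s) : ℝ) : ℂ)) := by
  have h := eulerProduct_ideal_hasProd (classLTerm K χ s) (classLTerm_one χ s)
    (classLTerm_mul χ s) (summable_norm_classLTerm χ hsum)
  have e1 : (fun v : HeightOneSpectrum (𝓞 K) ↦ (1 - classLTerm K χ s v.asIdeal)⁻¹) =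
      fun v ↦ (1 - ((χ (ClassGroup.mk0 (primeNZ v)) : ℂˣ) : ℂ) *
          (((absNorm v.asIdeal : ℝ) ^ (-s) : ℝ) : ℂ))⁻¹ := by
    funext v
    have hc := classLTerm_coe χ s (primeNZ v)
    have hv : ((primeNZ v : (Ideal (𝓞 K))⁰) : Ideal (𝓞 K)) = v.asIdeal := rfl
    rw [hv] at hc
    rw [hc]
  have e2 : (∑' I : (Ideal (𝓞 K))⁰, classLTerm K χ s (I : Ideal (𝓞 K))) =
      ∑' I : (Ideal (𝓞 K))⁰, ((χ (ClassGroup.mk0 I) : ℂˣ) : ℂ) *
          (((absNorm (I : Ideal (𝓞 K)) : ℝ) ^ (-s) : ℝ) : ℂ) :=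
    tsum_congr fun I ↦ classLTerm_coe χ s I
  rw [e1, e2] at h
  exact h

/-- the sum of `N(v)^(-s)` over the primes converges if the sum over the ideals does. -/
theorem summable_prime_rpow {s : ℝ}
    (hsum : Summable (fun I : (Ideal (𝓞 K))⁰ ↦ (absNorm (I : Ideal (𝓞 K)) : ℝ) ^ (-s))) :
    Summable (fun v : HeightOneSpectrum (𝓞 K) ↦ (absNorm v.asIdeal : ℝ) ^ (-s)) := by
  have := hsum.comp_injective (primeNZ_injective (R := 𝓞 K))
  refine this.congr fun v ↦ ?_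
  simp only [Function.comp_apply, primeNZ]

/-- **Lower bound for `‖L(s, χ)‖`**: `exp (∑ v, (Re χ(v) N(v)^(-s) - N(v)^(-2s))) ≤ ‖L(s,χ)‖`. -/
theorem exp_le_norm_classL (χ : ClassGroup (𝓞 K) →* ℂˣ) {s : ℝ}
    (hsum : Summable (fun I : (Ideal (𝓞 K))⁰ ↦ (absNorm (I : Ideal (𝓞 K)) : ℝ) ^ (-s))) :
    Real.exp (∑' v : HeightOneSpectrum (𝓞 K),
        (((χ (ClassGroup.mk0 (primeNZ v)) : ℂˣ) : ℂ).re * (absNorm v.asIdeal : ℝ) ^ (-s) -
          ((absNorm v.asIdeal : ℝ) ^ (-s)) ^ 2)) ≤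
      ‖∑' I : (Ideal (𝓞 K))⁰, ((χ (ClassGroup.mk0 I) : ℂˣ) : ℂ) *
          (((absNorm (I : Ideal (𝓞 K)) : ℝ) ^ (-s) : ℝ) : ℂ)‖ := by
  have h := exp_tsum_le_norm_tsum (classLTerm K χ s) (classLTerm_one χ s)
    (classLTerm_mul χ s) (summable_norm_classLTerm χ hsum)
  have e2 : (∑' I : (Ideal (𝓞 K))⁰, classLTerm K χ s (I : Ideal (𝓞 K))) =
      ∑' I : (Ideal (𝓞 K))⁰, ((χ (ClassGroup.mk0 I) : ℂˣ) : ℂ) *
          (((absNorm (I : Ideal (𝓞 K)) : ℝ) ^ (-s) : ℝ) : ℂ) :=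
    tsum_congr fun I ↦ classLTerm_coe χ s I
  have e1 : (fun v : HeightOneSpectrum (𝓞 K) ↦
      (classLTerm K χ s v.asIdeal).re - ‖classLTerm K χ s v.asIdeal‖ ^ 2) =
      fun v ↦ (((χ (ClassGroup.mk0 (primeNZ v)) : ℂˣ) : ℂ).re * (absNorm v.asIdeal : ℝ) ^ (-s) -
          ((absNorm v.asIdeal : ℝ) ^ (-s)) ^ 2) := by
    funext v
    have hn := norm_classLTerm_coe χ s (primeNZ v)
    have hc := classLTerm_coe χ s (primeNZ v)
    have hv : ((primeNZ v : (Ideal (𝓞 K))⁰) : Ideal (𝓞 K)) = v.asIdeal := rfl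
    rw [hv] at hn hc
    rw [hn, hc, Complex.re_mul_ofReal]
  rw [e1, e2] at h
  exact h

/-- **Upper bound for `‖L(s, χ)‖`**: `‖L(s,χ)‖ ≤ exp (∑ v, (N(v)^(-s) + 2 N(v)^(-2s)))`,
for `s ≥ 1`. -/
theorem norm_classL_le_exp (χ : ClassGroup (𝓞 K) →* ℂˣ) {s : ℝ} (hs : 1 ≤ s)
    (hsum : Summable (fun I : (Ideal (𝓞 K))⁰ ↦ (absNorm (I : Ideal (𝓞 K)) : ℝ) ^ (-s))) :
    ‖∑' I : (Ideal (𝓞 K))⁰, ((χ (ClassGroup.mk0 I) : ℂˣ) : ℂ) *
          (((absNorm (I : Ideal (𝓞 K)) : ℝ) ^ (-s) : ℝ) : ℂ)‖ ≤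
      Real.exp (∑' v : HeightOneSpectrum (𝓞 K),
        ((absNorm v.asIdeal : ℝ) ^ (-s) + 2 * ((absNorm v.asIdeal : ℝ) ^ (-s)) ^ 2)) := by
  have hnv : ∀ v : HeightOneSpectrum (𝓞 K),
      ‖classLTerm K χ s v.asIdeal‖ = (absNorm v.asIdeal : ℝ) ^ (-s) :=
    fun v ↦ norm_classLTerm_coe χ s (primeNZ v)
  have h := norm_tsum_le_exp_tsum (classLTerm K χ s) (classLTerm_one χ s)
    (classLTerm_mul χ s) (summable_norm_classLTerm χ hsum)
    (fun v ↦ (hnv v).le.trans (absNorm_rpow_neg_le_half v hs))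
  have e2 : (∑' I : (Ideal (𝓞 K))⁰, classLTerm K χ s (I : Ideal (𝓞 K))) =
      ∑' I : (Ideal (𝓞 K))⁰, ((χ (ClassGroup.mk0 I) : ℂˣ) : ℂ) *
          (((absNorm (I : Ideal (𝓞 K)) : ℝ) ^ (-s) : ℝ) : ℂ) :=
    tsum_congr fun I ↦ classLTerm_coe χ s I
  simp_rw [hnv] at h
  rw [e2] at h
  exact h

/-- the partial zeta sum as a real number: **Euler product bounds for `ζ_K(s)`**, `s ≥ 1`:
`exp (∑ v, (N(v)^(-s) - N(v)^(-2s))) ≤ ∑ I, N(I)^(-s) ≤ exp (∑ v, (N(v)^(-s) + 2 N(v)^(-2s)))`. -/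
theorem zeta_bounds {s : ℝ} (hs : 1 ≤ s)
    (hsum : Summable (fun I : (Ideal (𝓞 K))⁰ ↦ (absNorm (I : Ideal (𝓞 K)) : ℝ) ^ (-s))) :
    Real.exp (∑' v : HeightOneSpectrum (𝓞 K),
        ((absNorm v.asIdeal : ℝ) ^ (-s) - ((absNorm v.asIdeal : ℝ) ^ (-s)) ^ 2)) ≤
      ∑' I : (Ideal (𝓞 K))⁰, (absNorm (I : Ideal (𝓞 K)) : ℝ) ^ (-s) ∧
    ∑' I : (Ideal (𝓞 K))⁰, (absNorm (I : Ideal (𝓞 K)) : ℝ) ^ (-s) ≤
      Real.exp (∑' v : HeightOneSpectrum (𝓞 K),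
        ((absNorm v.asIdeal : ℝ) ^ (-s) + 2 * ((absNorm v.asIdeal : ℝ) ^ (-s)) ^ 2)) := by
  have hl := exp_le_norm_classL (K := K) 1 hsum
  have hu := norm_classL_le_exp (K := K) 1 hs hsum
  have e : ‖∑' I : (Ideal (𝓞 K))⁰, (((1 : ClassGroup (𝓞 K) →* ℂˣ) (ClassGroup.mk0 I) : ℂˣ) : ℂ) *
          (((absNorm (I : Ideal (𝓞 K)) : ℝ) ^ (-s) : ℝ) : ℂ)‖ =
      ∑' I : (Ideal (𝓞 K))⁰, (absNorm (I : Ideal (𝓞 K)) : ℝ) ^ (-s) := by
    simp only [MonoidHom.one_apply, Units.val_one, one_mul]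
    rw [← Complex.ofReal_tsum, Complex.norm_real, Real.norm_of_nonneg]
    exact tsum_nonneg fun I ↦ by positivity
  rw [e] at hl hu
  refine ⟨?_, hu⟩
  simpa using hl

end NumberField

end Fermat.Agent.H15
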