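import Fermat.Prelude.Def_CuspForm_HeckeLocal
import Fermat.Prelude.Def_CuspForm_HeckeEvalForms
import Fermat.Prelude.Def_HeckeGalois_EichlerShimura
import Fermat.Prelude.Def_ModularCurve_ModularUnit

/-!
# S16 (Eisenstein ideal index): top-level interfaces (helper15, block A of P-S16)

`S16` says `Nat.card (T ⧸ I T) = n`, where `T = heckeLatticeAlgebra p ∅`,
`π : HeckeAlg = ℤ[X_ℓ] →+* T` is the structure map, `I = ker ev` with
`ev = aeval (eisensteinSystem p)` and `n = eisensteinNumerator p`.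

Since `π` and `ev` are surjective, `T ⧸ π(ker ev) ≃ ℤ ⧸ ev(ker π)`, so S16 is equivalent to
`ev(ker π) = n ℤ`.  This splits into

* `S16LowerStatement p` (LB): every `P ∈ ker π` has `n ∣ ev P`;
* `S16UpperStatement p` (UB): a cusp form `f` of weight 2 on `Γ₀(p)` whose `q`-coefficients are
  integers congruent modulo `M` to `σ*(k) = ∑_{d ∣ k, p ∤ d} d` (for all `k ≥ 1`) forces `M ∣ n`.

The bridge (duality `L = Hom(T, ℤ)`) is `Fermat.Agent.H15.s16_of_upper_lower`
in `Fermat.Agent.H15.S16Duality`.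
-/

set_option autoImplicit false

namespace Fermat.Agent.H15

open ModularCurve CuspForm

/-- `σ*(k)`: the sum of the divisors of `k` prime to `p` (same body as `H41.sigmaPrime`). -/
def sigmaStar (p k : ℕ) : ℕ := ∑ d ∈ k.divisors.filter (fun d => ¬ p ∣ d), d

/-- The structure map `π : ℤ[X_ℓ] →+* T = heckeLatticeAlgebra p ∅` of S16. -/
noncomputable def s16Pi (p : ℕ) [Fact p.Prime] : HeckeAlg →+* ↥(heckeLatticeAlgebra p ∅) :=
  (latticeRestrictHom p ∅).toRingHom.comp (heckeEvalForms p 2)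

/-- The evaluation `ev : ℤ[X_ℓ] →+* ℤ` at the Eisenstein system
(`X_ℓ ↦ 1 + ℓ` for `ℓ ≠ p`, `X_p ↦ 1`). -/
noncomputable def s16Ev (p : ℕ) : HeckeAlg →+* ℤ :=
  (MvPolynomial.aeval (R := ℤ) (eisensteinSystem p)).toRingHom

/-- (LB) Lower bound: every Hecke polynomial acting as `0` on the integral lattice of
`S₂(Γ₀(p))` has Eisenstein value divisible by `n = eisensteinNumerator p`. -/
def S16LowerStatement (p : ℕ) [Fact p.Prime] : Prop :=
  ∀ P : HeckeAlg, s16Pi p P = 0 → (eisensteinNumerator p : ℤ) ∣ s16Ev p P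

/-- (UB) Upper bound: if a weight-2 cusp form on `Γ₀(p)` has integral `q`-coefficients congruent
to `σ*(k)` modulo `M` for all `k ≥ 1`, then `M ∣ n = eisensteinNumerator p`. -/
def S16UpperStatement (p : ℕ) [Fact p.Prime] : Prop :=
  ∀ M : ℕ, 0 < M → ∀ f : CuspForm (CongruenceSubgroup.Gamma0 p) 2,
    (∀ k : ℕ, 0 < k → ∃ c : ℤ, ModularFormClass.qCoeff (⇑f) k = (c : ℂ) ∧
      (M : ℤ) ∣ c - (sigmaStar p k : ℤ)) →
    M ∣ eisensteinNumerator p

end Fermat.Agent.H15
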