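import Mathlib
import Fermat.Agent.H15.S16Interfaces

/-!
# S16 block A: arithmetic of `σ*` and the abstract Hecke recursion
-/

set_option autoImplicit false

namespace Fermat.Agent.H15

open Finset

/-- Divisors of `n * ℓ` for a prime `ℓ`: the divisors of `n` together with `ℓ` times them. -/
theorem divisors_mul_prime (n ℓ : ℕ) (hℓ : ℓ.Prime) (hn : n ≠ 0) :
    (n * ℓ).divisors = n.divisors ∪ n.divisors.image (fun d => ℓ * d) := by
  ext d
  simp only [Nat.mem_divisors, mem_union, mem_image]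
  constructor
  · rintro ⟨hd, -⟩
    by_cases hld : ℓ ∣ d
    · obtain ⟨e, rfl⟩ := hld
      right
      refine ⟨e, ⟨?_, hn⟩, rfl⟩
      rw [mul_comm n ℓ] at hd
      exact (Nat.mul_dvd_mul_iff_left hℓ.pos).mp hd
    · left
      refine ⟨?_, hn⟩
      have hcop : Nat.Coprime d ℓ := (Nat.Coprime.symm ((Nat.Prime.coprime_iff_not_dvd hℓ).mpr hld))
      exact hcop.dvd_of_dvd_mul_right hd
  · rintro (⟨hd, -⟩ | ⟨e, ⟨he, -⟩, rfl⟩)
    · exact ⟨dvd_mul_of_dvd_left hd ℓ, mul_ne_zero hn hℓ.ne_zero⟩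
    · exact ⟨by rw [mul_comm n ℓ]; exact Nat.mul_dvd_mul_left ℓ he, mul_ne_zero hn hℓ.ne_zero⟩

/-- The overlap of the two pieces of `divisors_mul_prime`. -/
theorem divisors_inter_image (n ℓ : ℕ) (hℓ : ℓ.Prime) (hn : n ≠ 0) :
    n.divisors ∩ n.divisors.image (fun d => ℓ * d) =
      if ℓ ∣ n then (n / ℓ).divisors.image (fun d => ℓ * d) else ∅ := by
  ext d
  by_cases hln : ℓ ∣ n
  · rw [if_pos hln]
    simp only [mem_inter, Nat.mem_divisors, mem_image]
    obtain ⟨m, rfl⟩ := hln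
    have hm : m ≠ 0 := fun h => hn (by rw [h, mul_zero])
    rw [Nat.mul_div_cancel_left m hℓ.pos]
    constructor
    · rintro ⟨⟨hd, -⟩, e, -, rfl⟩
      exact ⟨e, ⟨(Nat.mul_dvd_mul_iff_left hℓ.pos).mp hd, hm⟩, rfl⟩
    · rintro ⟨e, ⟨he, -⟩, rfl⟩
      exact ⟨⟨Nat.mul_dvd_mul_left ℓ he, hn⟩, e, ⟨dvd_mul_of_dvd_right he ℓ, hn⟩, rfl⟩
  · rw [if_neg hln]
    simp only [mem_inter, Nat.mem_divisors, mem_image, notMem_empty, iff_false, not_and]
    rintro ⟨hd, -⟩ ⟨e, -, rfl⟩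
    exact hln (dvd_trans (dvd_mul_right ℓ e) hd)

/-- The divisor-sum recursion for a completely multiplicative function. -/
theorem sum_divisors_mul_prime {R : Type*} [CommRing R] (f : ℕ → R)
    (hf : ∀ a b, f (a * b) = f a * f b) (n ℓ : ℕ) (hℓ : ℓ.Prime) (hn : n ≠ 0) :
    ∑ d ∈ (n * ℓ).divisors, f d =
      (1 + f ℓ) * ∑ d ∈ n.divisors, f d -
        (if ℓ ∣ n then f ℓ * ∑ d ∈ (n / ℓ).divisors, f d else 0) := by
  have hinj : Function.Injective (fun d : ℕ => ℓ * d) := fun a b h =>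
    Nat.eq_of_mul_eq_mul_left hℓ.pos h
  have h1 := Finset.sum_union_inter (s₁ := n.divisors)
    (s₂ := n.divisors.image (fun d => ℓ * d)) (f := f)
  rw [← divisors_mul_prime n ℓ hℓ hn, divisors_inter_image n ℓ hℓ hn,
    Finset.sum_image (fun a _ b _ h => hinj h)] at h1
  have h2 : ∑ x ∈ n.divisors, f (ℓ * x) = f ℓ * ∑ x ∈ n.divisors, f x := by
    rw [Finset.mul_sum]
    exact Finset.sum_congr rfl fun x _ => hf ℓ x
  rw [h2] at h1
  by_cases hln : ℓ ∣ n
  · rw [if_pos hln] at h1 ⊢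
    rw [Finset.sum_image (fun a _ b _ h => hinj h)] at h1
    have h3 : ∑ x ∈ (n / ℓ).divisors, f (ℓ * x) = f ℓ * ∑ x ∈ (n / ℓ).divisors, f x := by
      rw [Finset.mul_sum]
      exact Finset.sum_congr rfl fun x _ => hf ℓ x
    rw [h3] at h1
    linear_combination h1
  · rw [if_neg hln] at h1 ⊢
    rw [Finset.sum_empty] at h1
    linear_combination h1

/-- The completely multiplicative function behind `σ*`. -/
def starWeight (p d : ℕ) : ℤ := if p ∣ d then 0 else (d : ℤ)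

theorem starWeight_mul (p : ℕ) (hp : p.Prime) (a b : ℕ) :
    starWeight p (a * b) = starWeight p a * starWeight p b := by
  unfold starWeight
  by_cases ha : p ∣ a
  · simp [ha, dvd_mul_of_dvd_left ha b]
  · by_cases hb : p ∣ b
    · simp [hb, dvd_mul_of_dvd_right hb a]
    · have hab : ¬ p ∣ a * b := fun h => (hp.dvd_mul.mp h).elim ha hb
      simp [ha, hb, hab]

theorem sigmaStar_eq_sum (p k : ℕ) :
    (sigmaStar p k : ℤ) = ∑ d ∈ k.divisors, starWeight p d := by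
  unfold sigmaStar starWeight
  rw [Finset.sum_filter]
  push_cast
  refine Finset.sum_congr rfl fun d _ => ?_
  by_cases h : p ∣ d <;> simp [h]

theorem sigmaStar_one (p : ℕ) (hp : p.Prime) : sigmaStar p 1 = 1 := by
  unfold sigmaStar
  rw [Nat.divisors_one, Finset.filter_singleton, if_pos (by
    intro h
    exact hp.one_lt.ne' (Nat.dvd_one.mp h))]
  simp

/-- Recursion for `σ*` at a prime `ℓ ≠ p`. -/
theorem sigmaStar_mul_prime (p : ℕ) (hp : p.Prime) (n ℓ : ℕ) (hℓ : ℓ.Prime) (hℓp : ℓ ≠ p)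
    (hn : n ≠ 0) :
    (sigmaStar p (n * ℓ) : ℤ) =
      (1 + (ℓ : ℤ)) * sigmaStar p n -
        (if ℓ ∣ n then (ℓ : ℤ) * sigmaStar p (n / ℓ) else 0) := by
  have hw : starWeight p ℓ = (ℓ : ℤ) := by
    unfold starWeight
    rw [if_neg]
    intro h
    exact hℓp ((Nat.prime_dvd_prime_iff_eq hp hℓ).mp h).symm
  have := sum_divisors_mul_prime (starWeight p) (starWeight_mul p hp) n ℓ hℓ hn
  rw [hw] at this
  simpa only [sigmaStar_eq_sum] using this

/-- Recursion for `σ*` at the prime `p`. -/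
theorem sigmaStar_mul_self (p : ℕ) (hp : p.Prime) (n : ℕ) (hn : n ≠ 0) :
    (sigmaStar p (n * p) : ℤ) = sigmaStar p n := by
  have hw : starWeight p p = 0 := by
    unfold starWeight
    rw [if_pos dvd_rfl]
  have := sum_divisors_mul_prime (starWeight p) (starWeight_mul p hp) n p hp hn
  rw [hw] at this
  simp only [sigmaStar_eq_sum]
  rw [this]
  split_ifs <;> ring

/-- **Abstract Hecke recursion.**  Two families `c, c' : ℕ → X → A` satisfying the same
"Hecke recursion" along operators `τ ℓ : X → X` and agreeing at index `1` agree at every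
positive index. -/
theorem hecke_recursion_unique {X A : Type*} [AddCommGroup A] (p : ℕ)
    (τ : Nat.Primes → X → X) (c c' : ℕ → X → A)
    (hc : ∀ (ℓ : Nat.Primes) (n : ℕ), n ≠ 0 → ∀ x,
      c (n * ℓ) x = c n (τ ℓ x) - (if (ℓ : ℕ) ≠ p ∧ (ℓ : ℕ) ∣ n then (ℓ : ℕ) • c (n / ℓ) x else 0))
    (hc' : ∀ (ℓ : Nat.Primes) (n : ℕ), n ≠ 0 → ∀ x,
      c' (n * ℓ) x = c' n (τ ℓ x) -
        (if (ℓ : ℕ) ≠ p ∧ (ℓ : ℕ) ∣ n then (ℓ : ℕ) • c' (n / ℓ) x else 0))
    (h1 : ∀ x, c 1 x = c' 1 x) :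
    ∀ n : ℕ, n ≠ 0 → ∀ x, c n x = c' n x := by
  intro n
  induction n using Nat.strong_induction_on with
  | _ n ih =>
    intro hn x
    by_cases hn1 : n = 1
    · subst hn1
      exact h1 x
    · obtain ⟨ℓ, hℓ, hℓn⟩ := Nat.exists_prime_and_dvd hn1
      obtain ⟨m, rfl⟩ := hℓn
      have hm : m ≠ 0 := fun h => hn (by rw [h, mul_zero])
      have hlt : m < ℓ * m := by
        have := hℓ.one_lt
        nlinarith [Nat.pos_of_ne_zero hm]
      have hc1 := hc ⟨ℓ, hℓ⟩ m hm x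
      have hc2 := hc' ⟨ℓ, hℓ⟩ m hm x
      simp only at hc1 hc2
      rw [mul_comm ℓ m, hc1, hc2, ih m hlt hm (τ ⟨ℓ, hℓ⟩ x)]
      congr 1
      by_cases hcond : ℓ ≠ p ∧ ℓ ∣ m
      · rw [if_pos hcond, if_pos hcond]
        have hdpos : m / ℓ ≠ 0 := by
          intro h0
          rw [Nat.div_eq_zero_iff] at h0
          rcases h0 with h0 | h0
          · exact hℓ.ne_zero h0
          · exact absurd (Nat.le_of_dvd (Nat.pos_of_ne_zero hm) hcond.2) (not_le.mpr h0)
        have hlt' : m / ℓ < ℓ * m :=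
          lt_of_le_of_lt (Nat.div_le_self m ℓ) hlt
        rw [ih (m / ℓ) hlt' hdpos x]
      · rw [if_neg hcond, if_neg hcond]

end Fermat.Agent.H15
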