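import Mathlib
import Fermat.Agent.H48.Lattice
import Fermat.Agent.H15.S16Arith

/-!
# S16 block A: the `a₁`-pairing between the Hecke algebra and the integral lattice
-/

set_option autoImplicit false

namespace Fermat.Agent.H15

open ModularCurve CuspForm CongruenceSubgroup ModularFormClass

variable (p : ℕ) [Fact p.Prime]

/-! ### Integer-valued coefficient functionals on the lattice -/

theorem exists_int_qCoeff (f : ↥(intLattice p 2)) (n : ℕ) :
    ∃ m : ℤ, qCoeff ⇑(f : CuspForm (Gamma0 p) 2) n = (m : ℂ) :=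
  (Fermat.Agent.H48.mem_intLattice_iff (f : CuspForm (Gamma0 p) 2)).mp f.2 n

/-- The `n`-th `q`-coefficient as a `ℤ`-linear functional on the integral lattice. -/
noncomputable def coeffZ (n : ℕ) : ↥(intLattice p 2) →ₗ[ℤ] ℤ where
  toFun f := (exists_int_qCoeff p f n).choose
  map_add' f g := by
    apply Int.cast_injective (α := ℂ)
    rw [Int.cast_add, ← (exists_int_qCoeff p (f + g) n).choose_spec,
      ← (exists_int_qCoeff p f n).choose_spec, ← (exists_int_qCoeff p g n).choose_spec]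
    exact Fermat.Agent.H48.qCoeff_add (f : CuspForm (Gamma0 p) 2) g n
  map_smul' c f := by
    apply Int.cast_injective (α := ℂ)
    rw [RingHom.id_apply, smul_eq_mul, Int.cast_mul,
      ← (exists_int_qCoeff p (c • f) n).choose_spec, ← (exists_int_qCoeff p f n).choose_spec]
    exact Fermat.Agent.H48.qCoeff_zsmul c (f : CuspForm (Gamma0 p) 2) n

theorem coeffZ_spec (n : ℕ) (f : ↥(intLattice p 2)) :
    ((coeffZ p n f : ℤ) : ℂ) = qCoeff ⇑(f : CuspForm (Gamma0 p) 2) n :=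
  ((exists_int_qCoeff p f n).choose_spec).symm

theorem coeffZ_zero_index (f : ↥(intLattice p 2)) : coeffZ p 0 f = 0 := by
  apply Int.cast_injective (α := ℂ)
  rw [coeffZ_spec, Int.cast_zero]
  exact Fermat.Agent.H48.qCoeff_cusp_zero _

theorem eq_zero_of_coeffZ (f : ↥(intLattice p 2)) (h : ∀ n, n ≠ 0 → coeffZ p n f = 0) :
    f = 0 := by
  apply Subtype.ext
  apply Fermat.Agent.H48.eq_zero_of_forall_qCoeff_eq_zero
  intro n
  rw [← coeffZ_spec]
  by_cases hn : n = 0
  · subst hn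
    rw [coeffZ_zero_index, Int.cast_zero]
  · rw [h n hn, Int.cast_zero]

/-! ### The Hecke elements `θ ℓ = π (X ℓ)` -/

/-- The image of the generator `X ℓ` in the lattice Hecke algebra. -/
noncomputable def theta (ℓ : Nat.Primes) : ↥(heckeLatticeAlgebra p ∅) :=
  s16Pi p (MvPolynomial.X ℓ)

theorem coe_latticeRestrictHom_apply (t : ↥(heckeAlgebra p 2 ∅)) (f : ↥(intLattice p 2)) :
    ((((latticeRestrictHom p ∅ t : ↥(heckeLatticeAlgebra p ∅)) :
      Module.End ℤ ↥(intLattice p 2)) f : ↥(intLattice p 2)) : CuspForm (Gamma0 p) 2) =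
      (t : Module.End ℂ (CuspForm (Gamma0 p) 2)) (f : CuspForm (Gamma0 p) 2) := rfl

theorem s16Pi_apply (P : HeckeAlg) :
    s16Pi p P = latticeRestrictHom p ∅ (heckeEvalForms p 2 P) := rfl

theorem theta_apply_of_ne (ℓ : Nat.Primes) (h : ¬ (ℓ : ℕ) ∣ p) (f : ↥(intLattice p 2)) :
    ((((theta p ℓ : ↥(heckeLatticeAlgebra p ∅)) : Module.End ℤ ↥(intLattice p 2)) f :
      ↥(intLattice p 2)) : CuspForm (Gamma0 p) 2) =
      CuspForm.heckeTLin 2 ℓ.2 h (f : CuspForm (Gamma0 p) 2) := by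
  unfold theta
  rw [s16Pi_apply, coe_latticeRestrictHom_apply]
  have := heckeEvalForms_heckeGen_of_not_dvd (N := p) (k := 2) (ℓ := ℓ) h
  unfold heckeGen at this
  rw [this]
  rfl

theorem theta_apply_of_eq (ℓ : Nat.Primes) (h : (ℓ : ℕ) ∣ p) (f : ↥(intLattice p 2)) :
    ((((theta p ℓ : ↥(heckeLatticeAlgebra p ∅)) : Module.End ℤ ↥(intLattice p 2)) f :
      ↥(intLattice p 2)) : CuspForm (Gamma0 p) 2) =
      CuspForm.heckeULin 2 h (f : CuspForm (Gamma0 p) 2) := by
  unfold theta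
  rw [s16Pi_apply, coe_latticeRestrictHom_apply]
  have := heckeEvalForms_heckeGen_of_dvd (N := p) (k := 2) (q := ℓ) h
  unfold heckeGen at this
  rw [this]
  rfl

theorem prime_dvd_iff_eq (ℓ : Nat.Primes) : (ℓ : ℕ) ∣ p ↔ (ℓ : ℕ) = p :=
  Nat.prime_dvd_prime_iff_eq ℓ.2 (Fact.out : p.Prime)

/-- The Hecke recursion for the coefficient functionals. -/
theorem coeffZ_mul_prime (ℓ : Nat.Primes) (n : ℕ) (f : ↥(intLattice p 2)) :
    coeffZ p (n * ℓ) f =
      coeffZ p n (((theta p ℓ : ↥(heckeLatticeAlgebra p ∅)) : Module.End ℤ ↥(intLattice p 2)) f) -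
        (if (ℓ : ℕ) ≠ p ∧ (ℓ : ℕ) ∣ n then (ℓ : ℕ) • coeffZ p (n / ℓ) f else 0) := by
  apply Int.cast_injective (α := ℂ)
  rw [Int.cast_sub, coeffZ_spec, coeffZ_spec]
  by_cases h : (ℓ : ℕ) ∣ p
  · have hp : (ℓ : ℕ) = p := (prime_dvd_iff_eq p ℓ).mp h
    rw [theta_apply_of_eq p ℓ h, Fermat.Agent.H48.qCoeff_heckeULin ℓ.2 h]
    rw [if_neg (fun hc => hc.1 hp)]
    simp
  · have hp : (ℓ : ℕ) ≠ p := fun hc => h ((prime_dvd_iff_eq p ℓ).mpr hc)
    rw [theta_apply_of_ne p ℓ h, Fermat.Agent.H48.qCoeff_heckeTLin ℓ.2 h]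
    by_cases hn : (ℓ : ℕ) ∣ n
    · rw [if_pos hn, if_pos ⟨hp, hn⟩, nsmul_eq_mul, Int.cast_mul, Int.cast_natCast, coeffZ_spec]
      ring
    · rw [if_neg hn, if_neg (fun hc => hn hc.2)]
      simp

/-! ### The pairing -/

/-- The `a₁`-pairing `L → Hom(T, ℤ)`, `f ↦ (t ↦ a₁(t f))`. -/
noncomputable def pairing : ↥(intLattice p 2) →ₗ[ℤ] (↥(heckeLatticeAlgebra p ∅) →ₗ[ℤ] ℤ) :=
  LinearMap.mk₂ ℤ
    (fun f t => coeffZ p 1 ((t : Module.End ℤ ↥(intLattice p 2)) f))
    (fun f g t => by simp only [map_add])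
    (fun c f t => by simp only [map_smul])
    (fun f t t' => by
      simp only [Subalgebra.coe_add, LinearMap.add_apply, map_add])
    (fun c f t => by
      simp only [Subalgebra.coe_smul, LinearMap.smul_apply, map_smul])

theorem pairing_apply (f : ↥(intLattice p 2)) (t : ↥(heckeLatticeAlgebra p ∅)) :
    pairing p f t = coeffZ p 1 ((t : Module.End ℤ ↥(intLattice p 2)) f) := rfl

/-- Recursion in the Hecke variable: `c n t := aₙ(t f)`. -/
theorem coeffZ_recursion_left (f : ↥(intLattice p 2)) (ℓ : Nat.Primes) (n : ℕ)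
    (t : ↥(heckeLatticeAlgebra p ∅)) :
    coeffZ p (n * ℓ) ((t : Module.End ℤ ↥(intLattice p 2)) f) =
      coeffZ p n (((theta p ℓ * t : ↥(heckeLatticeAlgebra p ∅)) :
        Module.End ℤ ↥(intLattice p 2)) f) -
        (if (ℓ : ℕ) ≠ p ∧ (ℓ : ℕ) ∣ n then
          (ℓ : ℕ) • coeffZ p (n / ℓ) ((t : Module.End ℤ ↥(intLattice p 2)) f) else 0) := by
  rw [coeffZ_mul_prime]
  rfl

/-- Recursion in the form variable: `c n f := aₙ(t f)`. -/
theorem coeffZ_recursion_right (t : ↥(heckeLatticeAlgebra p ∅)) (ℓ : Nat.Primes) (n : ℕ)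
    (f : ↥(intLattice p 2)) :
    coeffZ p (n * ℓ) ((t : Module.End ℤ ↥(intLattice p 2)) f) =
      coeffZ p n ((t : Module.End ℤ ↥(intLattice p 2))
        (((theta p ℓ : ↥(heckeLatticeAlgebra p ∅)) : Module.End ℤ ↥(intLattice p 2)) f)) -
        (if (ℓ : ℕ) ≠ p ∧ (ℓ : ℕ) ∣ n then
          (ℓ : ℕ) • coeffZ p (n / ℓ) ((t : Module.End ℤ ↥(intLattice p 2)) f) else 0) := by
  rw [coeffZ_recursion_left]
  have hcomm : theta p ℓ * t = t * theta p ℓ := mul_comm _ _
  rw [hcomm]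
  rfl

theorem pairing_injective : Function.Injective (pairing p) := by
  rw [injective_iff_map_eq_zero]
  intro f hf
  apply eq_zero_of_coeffZ
  intro n hn
  have key := hecke_recursion_unique (X := ↥(heckeLatticeAlgebra p ∅)) (A := ℤ) p
    (fun ℓ t => theta p ℓ * t)
    (fun n t => coeffZ p n ((t : Module.End ℤ ↥(intLattice p 2)) f))
    (fun _ _ => 0)
    (fun ℓ n _ t => coeffZ_recursion_left p f ℓ n t)
    (fun ℓ n _ t => by simp)
    (fun t => by
      have := LinearMap.congr_fun hf t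
      simpa [pairing_apply] using this)
    n hn 1
  simpa using key

theorem pairing_flip_injective : Function.Injective (pairing p).flip := by
  rw [injective_iff_map_eq_zero]
  intro t ht
  have key : ∀ n : ℕ, n ≠ 0 → ∀ f : ↥(intLattice p 2),
      coeffZ p n ((t : Module.End ℤ ↥(intLattice p 2)) f) = 0 :=
    hecke_recursion_unique (X := ↥(intLattice p 2)) (A := ℤ) p
      (fun ℓ f => ((theta p ℓ : ↥(heckeLatticeAlgebra p ∅)) : Module.End ℤ ↥(intLattice p 2)) f)
      (fun n f => coeffZ p n ((t : Module.End ℤ ↥(intLattice p 2)) f))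
      (fun _ _ => 0)
      (fun ℓ n _ f => coeffZ_recursion_right p t ℓ n f)
      (fun ℓ n _ f => by simp)
      (fun f => by
        have := LinearMap.congr_fun ht f
        simpa [pairing_apply] using this)
  apply Subtype.ext
  apply LinearMap.ext
  intro f
  exact eq_zero_of_coeffZ p _ (fun n hn => key n hn f)

end Fermat.Agent.H15
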