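import Mathlib
import Fermat.Agent.H15.S16Pairing

/-!
# S16 block A: perfectness of the `a₁`-pairing and the bridge theorem

`s16_of_upper_lower : S16UpperStatement p → S16LowerStatement p → (conclusion of S16)`.
-/

set_option autoImplicit false

namespace Fermat.Agent.H15

open ModularCurve CuspForm CongruenceSubgroup ModularFormClass

variable (p : ℕ) [Fact p.Prime]

/-! ### Ranks -/

theorem finrank_hecke_eq_finrank_lattice :
    Module.finrank ℤ ↥(heckeLatticeAlgebra p ∅) = Module.finrank ℤ ↥(intLattice p 2) := by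
  haveI := intLattice.moduleFinite p
  haveI := intLattice.moduleFree p
  apply le_antisymm
  · have h := LinearMap.finrank_le_finrank_of_injective (pairing_flip_injective p)
    rwa [Module.finrank_linearMap_self] at h
  · have h := LinearMap.finrank_le_finrank_of_injective (pairing_injective p)
    rwa [Module.finrank_linearMap_self] at h

/-- Every functional on the Hecke algebra has a nonzero multiple in the range of the pairing. -/
theorem exists_smul_mem_range_pairing (φ : ↥(heckeLatticeAlgebra p ∅) →ₗ[ℤ] ℤ) :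
    ∃ d : ℤ, d ≠ 0 ∧ d • φ ∈ LinearMap.range (pairing p) := by
  haveI := intLattice.moduleFinite p
  haveI := intLattice.moduleFree p
  set R := LinearMap.range (pairing p) with hR
  have h1 : Module.finrank ℤ R = Module.finrank ℤ ↥(intLattice p 2) :=
    LinearMap.finrank_range_of_inj (pairing_injective p)
  have h2 := Submodule.finrank_quotient_add_finrank R
  rw [h1, Module.finrank_linearMap_self, finrank_hecke_eq_finrank_lattice] at h2
  have h3 : Module.finrank ℤ ((↥(heckeLatticeAlgebra p ∅) →ₗ[ℤ] ℤ) ⧸ R) = 0 := by omega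
  have h4 := (Module.finrank_eq_zero_iff_isTorsion (R := ℤ)).mp h3
  obtain ⟨a, ha⟩ := @h4 (Submodule.Quotient.mk φ)
  refine ⟨(a : ℤ), nonZeroDivisors.coe_ne_zero a, ?_⟩
  have : (Submodule.Quotient.mk ((a : ℤ) • φ) : (↥(heckeLatticeAlgebra p ∅) →ₗ[ℤ] ℤ) ⧸ R) = 0 := by
    rw [Submodule.Quotient.mk_smul]
    exact ha
  exact (Submodule.Quotient.mk_eq_zero R).mp this

/-! ### Saturation -/

/-- If `Φ(f₀) = d • φ` then all coefficients of `f₀` are divisible by `d`. -/
theorem dvd_coeffZ_of_pairing_eq (f₀ : ↥(intLattice p 2)) (d : ℤ)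
    (φ : ↥(heckeLatticeAlgebra p ∅) →ₗ[ℤ] ℤ) (h : pairing p f₀ = d • φ) (n : ℕ) (hn : n ≠ 0) :
    d ∣ coeffZ p n f₀ := by
  have key := hecke_recursion_unique (X := ↥(heckeLatticeAlgebra p ∅)) (A := ZMod d.natAbs) p
    (fun ℓ t => theta p ℓ * t)
    (fun n t => ((coeffZ p n ((t : Module.End ℤ ↥(intLattice p 2)) f₀) : ℤ) : ZMod d.natAbs))
    (fun _ _ => 0)
    (fun ℓ n _ t => by
      rw [coeffZ_recursion_left p f₀ ℓ n t]
      push_cast
      congr 1
      split_ifs <;> simp)
    (fun ℓ n _ t => by simp)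
    (fun t => by
      have := LinearMap.congr_fun h t
      rw [pairing_apply] at this
      rw [this, LinearMap.smul_apply, smul_eq_mul, Int.cast_mul]
      have hd : ((d : ℤ) : ZMod d.natAbs) = 0 := by
        rw [ZMod.intCast_zmod_eq_zero_iff_dvd]
        exact Int.natAbs_dvd.mpr dvd_rfl
      rw [hd, zero_mul])
    n hn 1
  simp only [OneMemClass.coe_one, Module.End.one_apply] at key
  rw [ZMod.intCast_zmod_eq_zero_iff_dvd] at key
  exact Int.natAbs_dvd.mp key

/-- The pairing `L → Hom(T, ℤ)` is surjective (perfectness). -/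
theorem pairing_surjective : Function.Surjective (pairing p) := by
  intro φ
  obtain ⟨d, hd, f₀, hf₀⟩ := exists_smul_mem_range_pairing p φ
  have hdiv : ∀ n : ℕ, n ≠ 0 → d ∣ coeffZ p n f₀ :=
    fun n hn => dvd_coeffZ_of_pairing_eq p f₀ d φ hf₀ n hn
  -- the cusp form `f₀ / d`
  set g : CuspForm (Gamma0 p) 2 := ((d : ℂ)⁻¹) • (f₀ : CuspForm (Gamma0 p) 2) with hg
  have hdC : (d : ℂ) ≠ 0 := by exact_mod_cast hd
  have hgmem : g ∈ intLattice p 2 := by
    rw [Fermat.Agent.H48.mem_intLattice_iff]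
    intro n
    by_cases hn : n = 0
    · subst hn
      exact ⟨0, by rw [Fermat.Agent.H48.qCoeff_cusp_zero, Int.cast_zero]⟩
    · obtain ⟨k, hk⟩ := hdiv n hn
      refine ⟨k, ?_⟩
      rw [hg, Fermat.Agent.H48.qCoeff_smul, ← coeffZ_spec, hk, Int.cast_mul]
      field_simp
  have hsmul : d • (⟨g, hgmem⟩ : ↥(intLattice p 2)) = f₀ := by
    apply Subtype.ext
    show d • g = (f₀ : CuspForm (Gamma0 p) 2)
    rw [hg]
    have : d • ((d : ℂ)⁻¹ • (f₀ : CuspForm (Gamma0 p) 2)) =
        (d : ℂ) • ((d : ℂ)⁻¹ • (f₀ : CuspForm (Gamma0 p) 2)) := by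
      rw [Int.cast_smul_eq_zsmul]
    rw [this, smul_smul, mul_inv_cancel₀ hdC, one_smul]
  refine ⟨⟨g, hgmem⟩, ?_⟩
  have h1 : d • pairing p ⟨g, hgmem⟩ = d • φ := by
    rw [← map_smul, hsmul, hf₀]
  apply LinearMap.ext
  intro t
  have h2 := LinearMap.congr_fun h1 t
  simp only [LinearMap.smul_apply, smul_eq_mul] at h2
  exact mul_left_cancel₀ hd h2

end Fermat.Agent.H15
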