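import Mathlib
import Fermat.Agent.H15.S16Duality

/-!
# S16 block A: the bridge theorem

`s16_of_upper_lower : S16UpperStatement p → S16LowerStatement p → (conclusion of S16)`.
-/

set_option autoImplicit false

namespace Fermat.Agent.H15

open ModularCurve CuspForm CongruenceSubgroup ModularFormClass

variable (p : ℕ) [Fact p.Prime]

/-! ### Surjectivity of `π` and `ev` -/

theorem heckeEvalForms_surjective : Function.Surjective (heckeEvalForms p 2) := by
  intro t
  have hle : heckeAlgebra p 2 ∅ ≤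
      AlgHom.range ((heckeAlgebra p 2 ∅).val.comp
        (MvPolynomial.aeval (R := ℤ) (heckeFormsGen p 2))) := by
    apply Algebra.adjoin_le
    rintro x (⟨ℓ, hℓ, hℓN, -, rfl⟩ | ⟨q, hqN, hq, -, rfl⟩)
    · refine ⟨MvPolynomial.X ⟨ℓ, hℓ⟩, ?_⟩
      change (heckeAlgebra p 2 ∅).val
        (MvPolynomial.aeval (R := ℤ) (heckeFormsGen p 2) (MvPolynomial.X ⟨ℓ, hℓ⟩)) = _
      rw [MvPolynomial.aeval_X,
        heckeFormsGen_of_not_dvd (N := p) (k := 2) (ℓ := ⟨ℓ, hℓ⟩) hℓN]
      rfl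
    · refine ⟨MvPolynomial.X ⟨q, hq⟩, ?_⟩
      change (heckeAlgebra p 2 ∅).val
        (MvPolynomial.aeval (R := ℤ) (heckeFormsGen p 2) (MvPolynomial.X ⟨q, hq⟩)) = _
      rw [MvPolynomial.aeval_X,
        heckeFormsGen_of_dvd (N := p) (k := 2) (q := ⟨q, hq⟩) hqN]
      rfl
  obtain ⟨P, hP⟩ := hle t.2
  exact ⟨P, Subtype.ext hP⟩

theorem s16Pi_surjective : Function.Surjective (s16Pi p) := by
  intro t
  obtain ⟨s, rfl⟩ := latticeRestrictHom_surjective p ∅ t
  obtain ⟨P, rfl⟩ := heckeEvalForms_surjective p s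
  exact ⟨P, rfl⟩

theorem s16Ev_C (a : ℤ) : s16Ev p (MvPolynomial.C a) = a := by
  unfold s16Ev
  simp

theorem s16Ev_X (ℓ : Nat.Primes) : s16Ev p (MvPolynomial.X ℓ) = eisensteinSystem p ℓ := by
  unfold s16Ev
  simp

theorem s16Ev_surjective : Function.Surjective (s16Ev p) :=
  fun a => ⟨MvPolynomial.C a, s16Ev_C p a⟩

theorem eisensteinIdeal_eq_ker : eisensteinIdeal p = RingHom.ker (s16Ev p) := rfl

/-! ### Pure algebra: the quotient -/

theorem card_quotient_map_ker {R T : Type*} [CommRing R] [CommRing T] (π : R →+* T) (ev : R →+* ℤ)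
    (hπ : Function.Surjective π) (hev : Function.Surjective ev) (n : ℕ)
    (h : Ideal.map ev (RingHom.ker π) = Ideal.span {(n : ℤ)}) :
    Nat.card (T ⧸ Ideal.map π (RingHom.ker ev)) = n := by
  set J : Ideal ℤ := Ideal.map ev (RingHom.ker π) with hJ
  let g : R →+* ℤ ⧸ J := (Ideal.Quotient.mk J).comp ev
  have hg : RingHom.ker π ≤ RingHom.ker g := by
    intro x hx
    rw [RingHom.mem_ker, RingHom.comp_apply, Ideal.Quotient.eq_zero_iff_mem]
    exact Ideal.mem_map_of_mem ev hx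
  let ψ : T →+* ℤ ⧸ J := π.liftOfSurjective hπ ⟨g, hg⟩
  have hψ : ∀ x, ψ (π x) = g x := fun x => π.liftOfSurjective_comp_apply hπ ⟨g, hg⟩ x
  have hψsurj : Function.Surjective ψ := by
    intro y
    obtain ⟨a, rfl⟩ := Ideal.Quotient.mk_surjective y
    obtain ⟨x, rfl⟩ := hev a
    exact ⟨π x, hψ x⟩
  have hker : RingHom.ker ψ = Ideal.map π (RingHom.ker ev) := by
    apply le_antisymm
    · intro t ht
      obtain ⟨x, rfl⟩ := hπ t
      rw [RingHom.mem_ker, hψ, RingHom.comp_apply, Ideal.Quotient.eq_zero_iff_mem,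
        Ideal.mem_map_iff_of_surjective ev hev] at ht
      obtain ⟨y, hy, hyx⟩ := ht
      have hxy : x - y ∈ RingHom.ker ev := by
        rw [RingHom.mem_ker, map_sub, hyx, sub_self]
      have : π x = π (x - y) := by
        rw [map_sub, (RingHom.mem_ker).mp hy, sub_zero]
      rw [this]
      exact Ideal.mem_map_of_mem π hxy
    · rw [Ideal.map_le_iff_le_comap]
      intro x hx
      rw [Ideal.mem_comap, RingHom.mem_ker, hψ, RingHom.comp_apply,
        (RingHom.mem_ker).mp hx, map_zero]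
  have e1 : (T ⧸ Ideal.map π (RingHom.ker ev)) ≃+* (ℤ ⧸ J) :=
    (Ideal.quotEquivOfEq hker.symm).trans (RingHom.quotientKerEquivOfSurjective hψsurj)
  have e2 : (ℤ ⧸ J) ≃+* ZMod n :=
    (Ideal.quotEquivOfEq h).trans (Int.quotientSpanNatEquivZMod n)
  rw [Nat.card_congr (e1.trans e2).toEquiv, Nat.card_zmod]

/-! ### Existence of the congruent form -/

theorem eisensteinNumerator_pos : 0 < eisensteinNumerator p := by
  have hp : 2 ≤ p := (Fact.out : p.Prime).two_le
  unfold eisensteinNumerator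
  apply Nat.div_pos
  · exact Nat.le_of_dvd (by omega) (Nat.gcd_dvd_left _ _)
  · exact Nat.gcd_pos_of_pos_right _ (by norm_num)

/-- If `ev(ker π) ⊆ M ℤ` there is a form in the lattice with `aₖ ≡ σ*(k) mod M` for `k ≥ 1`. -/
theorem exists_form_congr (M : ℕ)
    (h : ∀ P : HeckeAlg, s16Pi p P = 0 → (M : ℤ) ∣ s16Ev p P) :
    ∃ f : CuspForm (Gamma0 p) 2, ∀ k : ℕ, 0 < k →
      ∃ c : ℤ, qCoeff (⇑f) k = (c : ℂ) ∧ (M : ℤ) ∣ c - (sigmaStar p k : ℤ) := by
  have hp : p.Prime := Fact.out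
  let g : HeckeAlg →+* ZMod M := (Int.castRingHom (ZMod M)).comp (s16Ev p)
  have hg : RingHom.ker (s16Pi p) ≤ RingHom.ker g := by
    intro P hP
    rw [RingHom.mem_ker, RingHom.comp_apply, Int.coe_castRingHom,
      ZMod.intCast_zmod_eq_zero_iff_dvd]
    exact h P hP
  let φb : ↥(heckeLatticeAlgebra p ∅) →+* ZMod M :=
    (s16Pi p).liftOfSurjective (s16Pi_surjective p) ⟨g, hg⟩
  have hφb : ∀ P, φb (s16Pi p P) = ((s16Ev p P : ℤ) : ZMod M) := fun P =>
    (s16Pi p).liftOfSurjective_comp_apply (s16Pi_surjective p) ⟨g, hg⟩ P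
  have hφbθ : ∀ ℓ : Nat.Primes, φb (theta p ℓ) = ((eisensteinSystem p ℓ : ℤ) : ZMod M) := by
    intro ℓ
    unfold theta
    rw [hφb, s16Ev_X]
  -- linear lift
  let castLin : ℤ →ₗ[ℤ] ZMod M := (Int.castAddHom (ZMod M)).toIntLinearMap
  have hcast : Function.Surjective castLin := ZMod.intCast_surjective
  let φbLin : ↥(heckeLatticeAlgebra p ∅) →ₗ[ℤ] ZMod M := φb.toAddMonoidHom.toIntLinearMap
  obtain ⟨φ, hφ⟩ := Module.projective_lifting_property castLin φbLin hcast
  have hφ' : ∀ t, ((φ t : ℤ) : ZMod M) = φb t := fun t => LinearMap.congr_fun hφ t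
  obtain ⟨f, hf⟩ := pairing_surjective p φ
  have key := hecke_recursion_unique (X := ↥(heckeLatticeAlgebra p ∅)) (A := ZMod M) p
    (fun ℓ t => theta p ℓ * t)
    (fun n t => ((coeffZ p n ((t : Module.End ℤ ↥(intLattice p 2)) f) : ℤ) : ZMod M))
    (fun n t => ((sigmaStar p n : ℤ) : ZMod M) * φb t)
    (fun ℓ n _ t => by
      rw [coeffZ_recursion_left p f ℓ n t]
      push_cast
      congr 1
      split_ifs <;> simp)
    (fun ℓ n hn t => by
      rw [map_mul, hφbθ]
      by_cases hℓ : (ℓ : ℕ) ∣ p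
      · have hℓp : (ℓ : ℕ) = p := (prime_dvd_iff_eq p ℓ).mp hℓ
        rw [eisensteinSystem_of_dvd hℓ, if_neg (fun hc => hc.1 hℓp), hℓp,
          sigmaStar_mul_self p hp n hn]
        simp
      · have hℓp : (ℓ : ℕ) ≠ p := fun hc => hℓ ((prime_dvd_iff_eq p ℓ).mpr hc)
        rw [eisensteinSystem_of_not_dvd hℓ, sigmaStar_mul_prime p hp n ℓ ℓ.2 hℓp hn]
        by_cases hn' : (ℓ : ℕ) ∣ n
        · rw [if_pos hn', if_pos ⟨hℓp, hn'⟩]
          push_cast
          simp only [nsmul_eq_mul]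
          ring
        · rw [if_neg hn', if_neg (fun hc => hn' hc.2)]
          push_cast
          ring)
    (fun t => by
      rw [sigmaStar_one p hp, ← pairing_apply, hf, hφ']
      simp)
  refine ⟨(f : CuspForm (Gamma0 p) 2), fun k hk => ⟨coeffZ p k f, (coeffZ_spec p k f).symm, ?_⟩⟩
  have h1 := key k hk.ne' 1
  simp only [OneMemClass.coe_one, Module.End.one_apply, map_one, mul_one] at h1
  rw [← ZMod.intCast_zmod_eq_zero_iff_dvd, Int.cast_sub, h1, sub_self]

/-! ### The bridge -/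

/-- **Block A of S16.**  The upper and lower bound statements imply S16. -/
theorem s16_of_upper_lower (hU : S16UpperStatement p) (hL : S16LowerStatement p) :
    Nat.card (↥(heckeLatticeAlgebra p ∅) ⧸
        Ideal.map ((latticeRestrictHom p ∅).toRingHom.comp (heckeEvalForms p 2))
          (eisensteinIdeal p)) =
      eisensteinNumerator p := by
  have hn : 0 < eisensteinNumerator p := eisensteinNumerator_pos p
  show Nat.card (↥(heckeLatticeAlgebra p ∅) ⧸ Ideal.map (s16Pi p) (RingHom.ker (s16Ev p))) = _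
  apply card_quotient_map_ker (s16Pi p) (s16Ev p) (s16Pi_surjective p) (s16Ev_surjective p)
  -- J = span {m}
  set J : Ideal ℤ := Ideal.map (s16Ev p) (RingHom.ker (s16Pi p)) with hJ
  have hmem : ∀ a : ℤ, a ∈ J ↔ ∃ P : HeckeAlg, s16Pi p P = 0 ∧ s16Ev p P = a := by
    intro a
    rw [hJ, Ideal.mem_map_iff_of_surjective (s16Ev p) (s16Ev_surjective p)]
    simp only [RingHom.mem_ker]
  obtain ⟨m₀, hm₀⟩ : ∃ m₀ : ℤ, J = Ideal.span {m₀} :=
    ⟨_, (Ideal.span_singleton_generator J).symm⟩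
  have hm : J = Ideal.span {((m₀.natAbs : ℕ) : ℤ)} := by rw [Int.span_natAbs, hm₀]
  set m : ℕ := m₀.natAbs with hmdef
  -- lower bound: n ∣ m
  have hnm : eisensteinNumerator p ∣ m := by
    have hmJ : (m : ℤ) ∈ J := by
      rw [hm]
      exact Ideal.mem_span_singleton_self _
    obtain ⟨P, hP, hPm⟩ := (hmem _).mp hmJ
    have := hL P hP
    rw [hPm] at this
    exact_mod_cast this
  -- every element of J is divisible by m
  have hJdvd : ∀ P : HeckeAlg, s16Pi p P = 0 → (m : ℤ) ∣ s16Ev p P := by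
    intro P hP
    have : s16Ev p P ∈ J := (hmem _).mpr ⟨P, hP, rfl⟩
    rw [hm, Ideal.mem_span_singleton] at this
    exact this
  -- upper bound
  have hmn : m ∣ eisensteinNumerator p := by
    by_cases hm0 : m = 0
    · exfalso
      have hall : ∀ P : HeckeAlg, s16Pi p P = 0 →
          ((eisensteinNumerator p + 1 : ℕ) : ℤ) ∣ s16Ev p P := by
        intro P hP
        have h0 := hJdvd P hP
        rw [hm0, Nat.cast_zero, zero_dvd_iff] at h0
        rw [h0]
        exact dvd_zero _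
      obtain ⟨f, hf⟩ := exists_form_congr p (eisensteinNumerator p + 1) hall
      have := hU (eisensteinNumerator p + 1) (Nat.succ_pos _) f hf
      have hle := Nat.le_of_dvd hn this
      omega
    · obtain ⟨f, hf⟩ := exists_form_congr p m hJdvd
      exact hU m (Nat.pos_of_ne_zero hm0) f hf
  rw [hm, Nat.dvd_antisymm hmn hnm]

end Fermat.Agent.H15
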