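import Mathlib
import Fermat.Agent.H15.S16Bridge
import Fermat.Agent.H20.S16.Interfaces

/-!
# S16 block A, second form: `DualityUBStatement` of the project interfaces (helper20)

`dualityUB : Fermat.Agent.H20.S16.DualityUBStatement`, plus the adapters between
`H20.S16.CuspCongr` / `H20.S16.UBCoreStatement` / `H20.S16.LBKer` and the `H15` statements.
-/

set_option autoImplicit false

namespace Fermat.Agent.H15

open ModularCurve CuspForm CongruenceSubgroup ModularFormClass

variable (p : ℕ) [Fact p.Prime]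

theorem sigmaP_eq_sigmaStar (k : ℕ) :
    Fermat.Agent.H20.S16.sigmaP p k = (sigmaStar p k : ℤ) := by
  unfold Fermat.Agent.H20.S16.sigmaP sigmaStar
  push_cast
  rfl

/-- The hypothesis shape of `S16UpperStatement` gives `CuspCongr`. -/
theorem cuspCongr_of_congr (M : ℕ) (f : CuspForm (Gamma0 p) 2)
    (hf : ∀ k : ℕ, 0 < k → ∃ c : ℤ, qCoeff (⇑f) k = (c : ℂ) ∧
      (M : ℤ) ∣ c - (sigmaStar p k : ℤ)) :
    Fermat.Agent.H20.S16.CuspCongr p M := by
  classical
  refine ⟨f, fun k => if h : 0 < k then (hf k h).choose else 0, ?_, ?_⟩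
  · intro k
    by_cases h : 0 < k
    · simp only [dif_pos h]
      exact (hf k h).choose_spec.1
    · have hk : k = 0 := by omega
      subst hk
      simp only [lt_self_iff_false, dite_false, Int.cast_zero]
      exact Fermat.Agent.H48.qCoeff_cusp_zero f
  · intro k hk
    have h : 0 < k := hk
    simp only [dif_pos h]
    rw [sigmaP_eq_sigmaStar]
    exact (hf k h).choose_spec.2

/-- `CuspCongr` gives the hypothesis shape of `S16UpperStatement`. -/
theorem congr_of_cuspCongr (M : ℕ) (h : Fermat.Agent.H20.S16.CuspCongr p M) :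
    ∃ f : CuspForm (Gamma0 p) 2, ∀ k : ℕ, 0 < k → ∃ c : ℤ, qCoeff (⇑f) k = (c : ℂ) ∧
      (M : ℤ) ∣ c - (sigmaStar p k : ℤ) := by
  obtain ⟨f, a, ha, hcongr⟩ := h
  refine ⟨f, fun k hk => ⟨a k, ha k, ?_⟩⟩
  rw [← sigmaP_eq_sigmaStar]
  exact hcongr k hk

/-- `UBCore` (every congruence modulus divides `n`) is the same as `S16UpperStatement`. -/
theorem upper_of_core
    (hcore : ∀ m : ℕ, 1 ≤ m → Fermat.Agent.H20.S16.CuspCongr p m → m ∣ eisensteinNumerator p) :
    S16UpperStatement p :=
  fun M hM f hf => hcore M hM (cuspCongr_of_congr p M f hf)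

theorem core_of_upper (hU : S16UpperStatement p) :
    ∀ m : ℕ, 1 ≤ m → Fermat.Agent.H20.S16.CuspCongr p m → m ∣ eisensteinNumerator p := by
  intro m hm h
  obtain ⟨f, hf⟩ := congr_of_cuspCongr p m h
  exact hU m hm f hf

/-- The upper bound in kernel form: some `P ∈ ker π` has `ev P = n`. -/
theorem exists_ker_ev_eq (hU : S16UpperStatement p) :
    ∃ P : HeckeAlg, s16Pi p P = 0 ∧ s16Ev p P = (eisensteinNumerator p : ℤ) := by
  have hn : 0 < eisensteinNumerator p := eisensteinNumerator_pos p
  set J : Ideal ℤ := Ideal.map (s16Ev p) (RingHom.ker (s16Pi p)) with hJ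
  have hmem : ∀ a : ℤ, a ∈ J ↔ ∃ P : HeckeAlg, s16Pi p P = 0 ∧ s16Ev p P = a := by
    intro a
    rw [hJ, Ideal.mem_map_iff_of_surjective (s16Ev p) (s16Ev_surjective p)]
    simp only [RingHom.mem_ker]
  obtain ⟨m₀, hm₀⟩ : ∃ m₀ : ℤ, J = Ideal.span {m₀} :=
    ⟨_, (Ideal.span_singleton_generator J).symm⟩
  have hm : J = Ideal.span {((m₀.natAbs : ℕ) : ℤ)} := by rw [Int.span_natAbs, hm₀]
  set m : ℕ := m₀.natAbs with hmdef
  have hJdvd : ∀ P : HeckeAlg, s16Pi p P = 0 → (m : ℤ) ∣ s16Ev p P := by
    intro P hP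
    have : s16Ev p P ∈ J := (hmem _).mpr ⟨P, hP, rfl⟩
    rw [hm, Ideal.mem_span_singleton] at this
    exact this
  have hmn : m ∣ eisensteinNumerator p := by
    by_cases hm0 : m = 0
    · exfalso
      have hall : ∀ P : HeckeAlg, s16Pi p P = 0 →
          ((eisensteinNumerator p + 1 : ℕ) : ℤ) ∣ s16Ev p P := by
        intro P hP
        have h0 := hJdvd P hP
        rw [hm0, Nat.cast_zero, zero_dvd_iff] at h0
        rw [h0]
        exact dvd_zero _
      obtain ⟨f, hf⟩ := exists_form_congr p (eisensteinNumerator p + 1) hall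
      have := hU (eisensteinNumerator p + 1) (Nat.succ_pos _) f hf
      have hle := Nat.le_of_dvd hn this
      omega
    · obtain ⟨f, hf⟩ := exists_form_congr p m hJdvd
      exact hU m (Nat.pos_of_ne_zero hm0) f hf
  have hnJ : ((eisensteinNumerator p : ℕ) : ℤ) ∈ J := by
    rw [hm, Ideal.mem_span_singleton]
    exact_mod_cast hmn
  exact (hmem _).mp hnJ

/-- Row 234 of P-S16 (DUAL-UB). -/
theorem dualityUB : Fermat.Agent.H20.S16.DualityUBStatement := by
  intro p _ hcore
  exact exists_ker_ev_eq p (upper_of_core p hcore)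

/-- The lower bounds in the two interface families coincide. -/
theorem lower_iff_LBKer : S16LowerStatement p ↔ Fermat.Agent.H20.S16.LBKer p := Iff.rfl

/-- `UBKer` of the project interfaces gives `S16UpperStatement`-free assembly input:
the kernel form of the upper bound follows from `S16UpperStatement`. -/
theorem ubKer_of_upper (hU : S16UpperStatement p) : Fermat.Agent.H20.S16.UBKer p :=
  exists_ker_ev_eq p hU

/-- (DUAL-LB) the easy half of duality, for the theta-series backup route. -/
theorem lower_of_cuspCongr (h : Fermat.Agent.H20.S16.CuspCongr p (eisensteinNumerator p)) :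
    S16LowerStatement p := by
  obtain ⟨f, hf⟩ := congr_of_cuspCongr p _ h
  have hp : p.Prime := Fact.out
  -- `f` has integral coefficients at all positive indices, so all multiples `t f` make sense
  -- through the `ℂ`-valued recursion; we use the lattice element.
  have hfmem : f ∈ intLattice p 2 := by
    rw [Fermat.Agent.H48.mem_intLattice_iff]
    intro k
    by_cases hk : 0 < k
    · obtain ⟨c, hc, -⟩ := hf k hk
      exact ⟨c, hc⟩
    · have hk0 : k = 0 := by omega
      subst hk0
      exact ⟨0, by rw [Fermat.Agent.H48.qCoeff_cusp_zero, Int.cast_zero]⟩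
  set F : ↥(intLattice p 2) := ⟨f, hfmem⟩ with hF
  have hcoef : ∀ k : ℕ, k ≠ 0 → ((coeffZ p k F : ℤ) : ZMod (eisensteinNumerator p)) =
      ((sigmaStar p k : ℤ) : ZMod (eisensteinNumerator p)) := by
    intro k hk
    obtain ⟨c, hc, hdvd⟩ := hf k (Nat.pos_of_ne_zero hk)
    have hcz : coeffZ p k F = c := by
      apply Int.cast_injective (α := ℂ)
      rw [coeffZ_spec, ← hc]
    rw [hcz]
    have := (ZMod.intCast_zmod_eq_zero_iff_dvd _ _).mpr hdvd
    rw [Int.cast_sub, sub_eq_zero] at this
    exact this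
  -- `F` is an Eisenstein eigenvector modulo `n`
  have key : ∀ t : HeckeAlg, ∀ k : ℕ, k ≠ 0 →
      ((coeffZ p k (((s16Pi p t : ↥(heckeLatticeAlgebra p ∅)) :
        Module.End ℤ ↥(intLattice p 2)) F) : ℤ) : ZMod (eisensteinNumerator p)) =
      ((s16Ev p t : ℤ) : ZMod (eisensteinNumerator p)) *
        ((sigmaStar p k : ℤ) : ZMod (eisensteinNumerator p)) := by
    intro t
    induction t using MvPolynomial.induction_on with
    | C a =>
      intro k hk
      have h1 : (((s16Pi p (MvPolynomial.C a) : ↥(heckeLatticeAlgebra p ∅)) :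
          Module.End ℤ ↥(intLattice p 2)) F) = a • F := by
        have : (MvPolynomial.C a : HeckeAlg) = (a : HeckeAlg) := by simp
        rw [this, map_intCast]
        simp
      rw [h1, map_smul, smul_eq_mul, s16Ev_C, Int.cast_mul, hcoef k hk]
    | add s t hs ht =>
      intro k hk
      rw [map_add, map_add, Subalgebra.coe_add, LinearMap.add_apply, map_add, Int.cast_add,
        Int.cast_add, hs k hk, ht k hk]
      ring
    | mul_X t ℓ ht =>
      intro k hk
      have hcomm : s16Pi p (t * MvPolynomial.X ℓ) = theta p ℓ * s16Pi p t := by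
        rw [map_mul, mul_comm]
        rfl
      have hrec := coeffZ_recursion_left p F ℓ k (s16Pi p t)
      rw [hcomm]
      have hkl : k * (ℓ : ℕ) ≠ 0 := mul_ne_zero hk ℓ.2.ne_zero
      have e1 : coeffZ p k (((theta p ℓ * s16Pi p t : ↥(heckeLatticeAlgebra p ∅)) :
          Module.End ℤ ↥(intLattice p 2)) F) =
          coeffZ p (k * ℓ) (((s16Pi p t : ↥(heckeLatticeAlgebra p ∅)) :
            Module.End ℤ ↥(intLattice p 2)) F) +
          (if (ℓ : ℕ) ≠ p ∧ (ℓ : ℕ) ∣ k then
            (ℓ : ℕ) • coeffZ p (k / ℓ) (((s16Pi p t : ↥(heckeLatticeAlgebra p ∅)) :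
              Module.End ℤ ↥(intLattice p 2)) F) else 0) := by
        rw [hrec]
        ring
      rw [e1, map_mul, s16Ev_X, Int.cast_add, ht (k * ℓ) hkl]
      by_cases hℓ : (ℓ : ℕ) ∣ p
      · have hℓp : (ℓ : ℕ) = p := (prime_dvd_iff_eq p ℓ).mp hℓ
        rw [eisensteinSystem_of_dvd hℓ, if_neg (fun hc => hc.1 hℓp), hℓp,
          sigmaStar_mul_self p hp k hk]
        simp
      · have hℓp : (ℓ : ℕ) ≠ p := fun hc => hℓ ((prime_dvd_iff_eq p ℓ).mpr hc)
        rw [eisensteinSystem_of_not_dvd hℓ, sigmaStar_mul_prime p hp k ℓ ℓ.2 hℓp hk]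
        by_cases hn' : (ℓ : ℕ) ∣ k
        · have hdpos : k / (ℓ : ℕ) ≠ 0 := by
            intro h0
            rw [Nat.div_eq_zero_iff] at h0
            rcases h0 with h0 | h0
            · exact ℓ.2.ne_zero h0
            · exact absurd (Nat.le_of_dvd (Nat.pos_of_ne_zero hk) hn') (not_le.mpr h0)
          rw [if_pos hn', if_pos ⟨hℓp, hn'⟩, nsmul_eq_mul, Int.cast_mul, ht (k / ℓ) hdpos]
          push_cast
          ring
        · rw [if_neg hn', if_neg (fun hc => hn' hc.2)]
          push_cast
          ring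
  intro P hP
  have h1 := key P 1 one_ne_zero
  rw [hP] at h1
  simp only [ZeroMemClass.coe_zero, LinearMap.zero_apply, map_zero, Int.cast_zero,
    sigmaStar_one p hp, Nat.cast_one, Int.cast_one, mul_one] at h1
  exact (ZMod.intCast_zmod_eq_zero_iff_dvd _ _).mp h1.symm

/-- Row DUAL-LB of P-S16. -/
theorem dualityLB : Fermat.Agent.H20.S16.DualityLBStatement := by
  intro p _ h
  exact lower_of_cuspCongr p h

end Fermat.Agent.H15
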